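/-
S25, unit U3: triangular families of Laurent series, monic functions, the basis of the coordinate ring.
-/
import Fermat.Agent.Jac.Base

set_option autoImplicit false
set_option linter.unusedSectionVars false

noncomputable section

universe u

open scoped TensorProduct
open scoped Classical

namespace Fermat.Agent.Jac

section Series

variable {B : Type u} [CommRing B]

theorem smul_coeff (b : B) (x : LaurentSeries B) (i : ℤ) : (b • x).coeff i = b * x.coeff i := rfl

/-- Leading terms of a family of series. -/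
def IsTri (off : ℕ) (S : Set ℕ) (b : ℕ → LaurentSeries B) : Prop :=
  ∀ n ∈ S, (b n).coeff (-((off + n : ℕ) : ℤ)) = 1 ∧
    ∀ i : ℤ, i < -((off + n : ℕ) : ℤ) → (b n).coeff i = 0

variable {off : ℕ} {S : Set ℕ} {b : ℕ → LaurentSeries B}

theorem IsTri.coeff_sum_top (h : IsTri off S b) {a : ℕ →₀ B} (ha : ↑a.support ⊆ S) {n : ℕ}
    (hn : n ∈ S) (htop : ∀ m, n < m → a m = 0) :
    (Finsupp.linearCombination B b a).coeff (-((off + n : ℕ) : ℤ)) =
      a n + ∑ m ∈ a.support.filter (fun m => m < n), a m * (b m).coeff (-((off + n : ℕ) : ℤ)) := by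
  rw [Finsupp.linearCombination_apply, Finsupp.sum, HahnSeries.coeff_sum]
  simp only [smul_coeff]
  rw [← Finset.sum_filter_add_sum_filter_not a.support (fun m => m < n), add_comm]
  congr 1
  by_cases hmem : n ∈ a.support
  · rw [Finset.sum_eq_single n]
    · rw [(h n hn).1, mul_one]
    · intro m hm hmn
      obtain ⟨h1, h2⟩ := Finset.mem_filter.mp hm
      exact absurd (htop m (by omega)) (Finsupp.mem_support_iff.mp h1)
    · intro hh; exact absurd (Finset.mem_filter.mpr ⟨hmem, by omega⟩) hh
  · rw [Finsupp.notMem_support_iff.mp hmem]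
    refine Finset.sum_eq_zero fun m hm => ?_
    obtain ⟨h1, h2⟩ := Finset.mem_filter.mp hm
    have : m ≠ n := fun e => hmem (e ▸ h1)
    exact absurd (htop m (by omega)) (Finsupp.mem_support_iff.mp h1)

/-- Coefficients of a combination with small polar part are small. -/
theorem IsTri.mem_of_coeff_mem (h : IsTri off S b) (I : Ideal B) {a : ℕ →₀ B}
    (ha : ↑a.support ⊆ S) (N : ℕ)
    (hc : ∀ n, N ≤ n → (Finsupp.linearCombination B b a).coeff (-((off + n : ℕ) : ℤ)) ∈ I) :
    ∀ n, N ≤ n → a n ∈ I := by
  have key : ∀ (t n : ℕ), N ≤ n → a.support.sup id + 1 ≤ n + t → a n ∈ I := fun t => by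
    induction t with
    | zero =>
      intro n _ hn
      rw [Finsupp.notMem_support_iff.mp fun hmem => by
        have := Finset.le_sup (f := id) hmem
        simp only [id] at this
        omega]
      exact zero_mem I
    | succ t ih =>
      intro n hn hnt
      by_cases hmem : n ∈ a.support
      swap
      · rw [Finsupp.notMem_support_iff.mp hmem]; exact zero_mem I
      set a₁ : ℕ →₀ B := a.filter fun m => m ≤ n with ha₁
      set a₂ : ℕ →₀ B := a.filter fun m => ¬m ≤ n with ha₂
      have hsum : a₁ + a₂ = a := Finsupp.filter_add_filter_not a _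
      have hS₁ : ↑a₁.support ⊆ S :=
        (Finset.coe_subset.mpr (by rw [ha₁, Finsupp.support_filter]; exact Finset.filter_subset _ _)).trans ha
      have h1 := hc n hn
      rw [← hsum, map_add, HahnSeries.coeff_add] at h1
      have h2 : (Finsupp.linearCombination B b a₂).coeff (-((off + n : ℕ) : ℤ)) ∈ I := by
        rw [Finsupp.linearCombination_apply, Finsupp.sum, HahnSeries.coeff_sum]
        refine sum_mem fun m hm => ?_
        rw [smul_coeff]
        refine I.mul_mem_right _ ?_
        rw [ha₂, Finsupp.support_filter, Finset.mem_filter] at hm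
        rw [ha₂, Finsupp.filter_apply, if_pos hm.2]
        exact ih m (by omega) (by omega)
      have h3 := (Ideal.add_mem_iff_left I h2).mp h1
      rw [h.coeff_sum_top hS₁ (ha hmem) fun m hm => by
        rw [ha₁, Finsupp.filter_apply, if_neg (by omega)]] at h3
      have h4 : ∑ m ∈ a₁.support.filter (fun m => m < n),
          a₁ m * (b m).coeff (-((off + n : ℕ) : ℤ)) = 0 := Finset.sum_eq_zero fun m hm => by
        obtain ⟨hm1, hm2⟩ := Finset.mem_filter.mp hm
        rw [(h m (hS₁ hm1)).2 _ (by omega), mul_zero]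
      rwa [h4, add_zero, ha₁, Finsupp.filter_apply, if_pos le_rfl] at h3
  exact fun n hn => key (a.support.sup id + 1) n hn (Nat.le_add_left _ _)

theorem IsTri.eq_zero (h : IsTri off S b) {a : ℕ →₀ B} (ha : ↑a.support ⊆ S)
    (hc : ∀ n, (Finsupp.linearCombination B b a).coeff (-((off + n : ℕ) : ℤ)) = 0) : a = 0 :=
  Finsupp.ext fun n => (Submodule.mem_bot B).mp
    (h.mem_of_coeff_mem ⊥ ha 0 (fun n _ => by rw [Submodule.mem_bot]; exact hc n) n (Nat.zero_le n))

theorem IsTri.bijective_polar (h : IsTri off Set.univ b) :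
    Function.Bijective ((CurveData.polar B off).comp
      (Submodule.span B (Set.range b)).subtype) := by
  refine ⟨(injective_iff_map_eq_zero _).mpr fun x hx => ?_, fun y => ?_⟩
  · obtain ⟨a, ha⟩ := Finsupp.mem_span_range_iff_exists_finsupp.mp x.2
    refine Subtype.ext ?_
    rw [← ha, Submodule.coe_zero]
    have h0 : Finsupp.linearCombination B b a = (x : LaurentSeries B) := ha
    rw [h.eq_zero (a := a) (Set.subset_univ _) fun n => by
      rw [h0]
      exact congrArg (fun z : {j : ℕ // off ≤ j} →₀ B => z ⟨off + n, Nat.le_add_right _ _⟩) hx]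
    simp
  · suffices hy : ∀ (N : ℕ) (y : {j : ℕ // off ≤ j} →₀ B), (∀ j, off + N ≤ j.1 → y j = 0) →
        ∃ x ∈ Submodule.span B (Set.range b), CurveData.polar B off x = y by
      obtain ⟨x, hx, e⟩ := hy (y.support.sup (fun j => j.1) + 1) y fun j hj => by
        by_contra hne
        have := Finset.le_sup (f := fun j : {j : ℕ // off ≤ j} => j.1) (Finsupp.mem_support_iff.mpr hne)
        omega
      exact ⟨⟨x, hx⟩, e⟩
    intro N
    induction N with
    | zero =>
      intro y hy
      refine ⟨0, zero_mem _, ?_⟩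
      rw [map_zero]
      exact (Finsupp.ext fun j => by rw [hy j (by have := j.2; omega), Finsupp.zero_apply]).symm
    | succ N ih =>
      intro y hy
      set r := y ⟨off + N, Nat.le_add_right _ _⟩
      obtain ⟨x, hx, e⟩ := ih (y - r • CurveData.polar B off (b N)) fun j hj => by
        rw [Finsupp.sub_apply, Finsupp.smul_apply, CurveData.polar_apply, smul_eq_mul]
        rcases eq_or_lt_of_le hj with h' | h'
        · obtain ⟨j, hj'⟩ := j
          subst h'
          rw [(h N trivial).1, mul_one]
          exact sub_self _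
        · rw [hy j (by omega), (h N trivial).2 _ (by omega), mul_zero, sub_zero]
      refine ⟨x + r • b N, add_mem hx (Submodule.smul_mem _ r (Submodule.subset_span ⟨N, rfl⟩)), ?_⟩
      rw [map_add, map_smul, e, sub_add_cancel]

end Series

namespace CurveData

variable {k : Type u} [Field k] (D : CurveData k)

/-- A monic function of each pole order that is not a gap. -/
def aFun (n : ℕ) : D.A := if h : n ∈ D.gaps then 0 else (D.exists_monic n h).choose

theorem aFun_spec {n : ℕ} (h : n ∉ D.gaps) :
    (D.emb (D.aFun n)).coeff (-n : ℤ) = 1 ∧ ∀ i : ℤ, i < -n → (D.emb (D.aFun n)).coeff i = 0 := by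
  rw [aFun, dif_neg h]
  exact (D.exists_monic n h).choose_spec

theorem exists_pole_bound (a : D.A) : ∃ N : ℕ, ∀ i : ℤ, i < -(N : ℤ) → (D.emb a).coeff i = 0 :=
  ⟨(-(D.emb a).order).toNat, fun _ hi => HahnSeries.coeff_eq_zero_of_lt_order (by omega)⟩

theorem mem_span_aFun (a : D.A) : a ∈ Submodule.span k (D.aFun '' {n | n ∉ D.gaps}) := by
  suffices h : ∀ (N : ℕ) (a : D.A), (∀ i : ℤ, i ≤ -(N : ℤ) → (D.emb a).coeff i = 0) →
      a ∈ Submodule.span k (D.aFun '' {n | n ∉ D.gaps}) by
    obtain ⟨N, hN⟩ := D.exists_pole_bound a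
    exact h (N + 1) a fun i hi => hN i (by push_cast at hi; omega)
  intro N
  induction N with
  | zero =>
    intro a ha
    obtain ⟨r, rfl⟩ := D.eq_const a fun i hi => ha i (by push_cast; omega)
    have h0 := ha 0 (by simp)
    rw [AlgHom.commutes, HahnSeries.algebraMap_apply] at h0
    simp [HahnSeries.C_apply] at h0
    rw [h0, map_zero]
    exact zero_mem _
  | succ N ih =>
    intro a ha
    have hlt : ∀ i : ℤ, i < -(N : ℤ) → (D.emb a).coeff i = 0 := fun i hi => ha i (by push_cast; omega)
    by_cases hN : N ∈ D.gaps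
    · refine ih a fun i hi => ?_
      rcases eq_or_lt_of_le hi with rfl | h
      · exact D.coeff_gap a N hN hlt
      · exact hlt i h
    · set r := (D.emb a).coeff (-N : ℤ)
      have h := ih (a - r • D.aFun N) fun i hi => by
        rw [map_sub, map_smul, HahnSeries.coeff_sub, smul_coeff]
        rcases eq_or_lt_of_le hi with rfl | h
        · rw [(D.aFun_spec hN).1, mul_one]; exact sub_self _
        · rw [hlt i h, (D.aFun_spec hN).2 i h, mul_zero, sub_zero]
      rw [← sub_add_cancel a (r • D.aFun N)]
      exact add_mem h (Submodule.smul_mem _ r (Submodule.subset_span ⟨N, hN, rfl⟩))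

variable (B : Type u) [CommRing B] [Algebra k B]

/-- A function with constant coefficients. -/
def embC : D.A →ₐ[k] LaurentSeries B := (coeffMapₐ (Algebra.ofId k B)).comp D.emb

theorem embC_apply (a : D.A) : D.embC B a = D.embB B (1 ⊗ₜ[k] a) := by
  simp [embC, embB]

theorem embC_coeff (a : D.A) (i : ℤ) :
    (D.embC B a).coeff i = algebraMap k B ((D.emb a).coeff i) := rfl

theorem embC_mem_reg (a : D.A) : D.embC B a ∈ D.reg B := ⟨1 ⊗ₜ[k] a, (D.embC_apply B a).symm⟩

theorem coeffMapₐ_embC {B' : Type u} [CommRing B'] [Algebra k B'] (φ : B →ₐ[k] B') (a : D.A) :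
    coeffMapₐ φ (D.embC B a) = D.embC B' a := by
  ext i
  simp [embC_coeff]

/-- The expansion of the monic functions. -/
def eFun (n : ℕ) : LaurentSeries B := D.embC B (D.aFun n)

theorem isTri_eFun : IsTri 0 {n | n ∉ D.gaps} (D.eFun B) := fun n hn => by
  refine ⟨?_, fun i hi => ?_⟩
  · rw [eFun, embC_coeff, Nat.zero_add, (D.aFun_spec hn).1, map_one]
  · rw [eFun, embC_coeff, (D.aFun_spec hn).2 i (by simpa using hi), map_zero]

theorem embB_tmul_embC (b : B) (a : D.A) : D.embB B (b ⊗ₜ[k] a) = b • D.embC B a := by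
  rw [embC_apply, ← map_smul, TensorProduct.smul_tmul', smul_eq_mul, mul_one]

theorem embC_mem_span (a : D.A) :
    D.embC B a ∈ Submodule.span B (D.eFun B '' {n | n ∉ D.gaps}) := by
  have h := D.mem_span_aFun a
  induction h using Submodule.span_induction with
  | mem x hx =>
    obtain ⟨n, hn, rfl⟩ := hx
    exact Submodule.subset_span ⟨n, hn, rfl⟩
  | zero => rw [map_zero]; exact zero_mem _
  | add x y _ _ hx hy => rw [map_add]; exact add_mem hx hy
  | smul r x _ hx =>
    rw [Algebra.smul_def, map_mul, AlgHom.commutes]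
    have : algebraMap k (LaurentSeries B) r * D.embC B x =
        algebraMap k B r • D.embC B x := by
      rw [HahnSeries.algebraMap_apply, HahnSeries.C_mul_eq_smul]
    rw [this]
    exact Submodule.smul_mem _ _ hx

theorem reg_eq_span :
    Subalgebra.toSubmodule (D.reg B) = Submodule.span B (D.eFun B '' {n | n ∉ D.gaps}) := by
  refine le_antisymm ?_ (Submodule.span_le.mpr ?_)
  · rintro _ ⟨x, rfl⟩
    induction x using TensorProduct.induction_on with
    | zero =>
      rw [map_zero]; exact zero_mem _
    | add x y hx hy => rw [map_add]; exact add_mem hx hy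
    | tmul b a =>
      change D.embB B (b ⊗ₜ[k] a) ∈ _
      rw [embB_tmul_embC]
      exact Submodule.smul_mem _ _ (D.embC_mem_span B a)
  · rintro _ ⟨n, -, rfl⟩
    exact D.embC_mem_reg B _

variable {B}

theorem exists_of_mem_reg {x : LaurentSeries B} (hx : x ∈ D.reg B) :
    ∃ a : ℕ →₀ B, ↑a.support ⊆ {n | n ∉ D.gaps} ∧
      Finsupp.linearCombination B (D.eFun B) a = x := by
  have h1 : x ∈ Submodule.span B (D.eFun B '' {n | n ∉ D.gaps}) := by
    rw [← reg_eq_span]; exact hx
  obtain ⟨a, ha, e⟩ := (Finsupp.mem_span_image_iff_linearCombination B).mp h1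
  exact ⟨a, (Finsupp.mem_supported B a).mp ha, e⟩

end CurveData

end Fermat.Agent.Jac
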