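/-
S25, unit U3: parameters of normalised submodules, the equations expressing stability under the functions.
-/
import Fermat.Agent.Jac.Chart.Tri
import Mathlib.LinearAlgebra.Matrix.NonsingularInverse
import Mathlib.RingTheory.PowerSeries.Inverse

set_option autoImplicit false
set_option linter.unusedSectionVars false

noncomputable section

universe u

open scoped TensorProduct
open scoped Classical

namespace Fermat.Agent.Jac

theorem coeffMapₐ_smul_series {k : Type u} [Field k] {B B' : Type u} [CommRing B] [Algebra k B]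
    [CommRing B'] [Algebra k B'] (φ : B →ₐ[k] B') (b : B) (x : LaurentSeries B) :
    coeffMapₐ φ (b • x) = φ b • coeffMapₐ φ x := by
  ext i
  simp [smul_coeff]

theorem coeffMapₐ_single {k : Type u} [Field k] {B B' : Type u} [CommRing B] [Algebra k B]
    [CommRing B'] [Algebra k B'] (φ : B →ₐ[k] B') (j : ℤ) (b : B) :
    coeffMapₐ φ (HahnSeries.single j b) = HahnSeries.single j (φ b) := by
  ext i
  simp [HahnSeries.coeff_single]
  split_ifs <;> simp

namespace CurveData

variable {k : Type u} [Field k] (D : CurveData k)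
variable {B : Type u} [CommRing B] [Algebra k B]

/-- A pole order that is not a gap. -/
def f0Deg : ℕ := D.gaps.sup id + 1

theorem f0Deg_notMem : D.f0Deg ∉ D.gaps := fun h => by
  have := Finset.le_sup (f := id) h
  simp only [f0Deg, id] at this
  omega

/-- A function whose pole order is not a gap and is positive. -/
def f0 : D.A := D.aFun D.f0Deg

/-- Generators of the functions. -/
def gens : Finset D.A :=
  insert D.f0 (Algebra.FiniteType.out : (⊤ : Subalgebra k D.A).FG).choose

theorem adjoin_gens : Algebra.adjoin k (D.gens : Set D.A) = ⊤ := by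
  refine eq_top_iff.mpr ?_
  have h := (Algebra.FiniteType.out : (⊤ : Subalgebra k D.A).FG).choose_spec
  calc (⊤ : Subalgebra k D.A) = Algebra.adjoin k _ := h.symm
    _ ≤ _ := Algebra.adjoin_mono (by simp [gens])

theorem f0_mem_gens : D.f0 ∈ D.gens := Finset.mem_insert_self _ _

/-- A bound for the pole order. -/
def poleBound (a : D.A) : ℕ := (D.exists_pole_bound a).choose

theorem poleBound_spec (a : D.A) {i : ℤ} (hi : i < -(D.poleBound a : ℤ)) :
    (D.emb a).coeff i = 0 := (D.exists_pole_bound a).choose_spec i hi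

/-- The unknowns. -/
abbrev Var : Type u :=
  (D.gaps × ℕ) ⊕ (Σ sp : D.gens × D.gaps, Fin (D.poleBound sp.1.1 + sp.2.1 + 1))

/-- The series with a given polar part at one gap. -/
def mser (v : D.Var → B) (p : D.gaps) : LaurentSeries B :=
  HahnSeries.single (-((D.genus + p.1 : ℕ) : ℤ)) 1 +
    HahnSeries.single (1 - (D.genus : ℤ)) 1 *
      HahnSeries.ofPowerSeries ℤ B (PowerSeries.mk fun n => v (.inl (p, n)))

theorem mser_coeff (v : D.Var → B) (p : D.gaps) (i : ℤ) :
    (D.mser v p).coeff i = if i = -((D.genus + p.1 : ℕ) : ℤ) then 1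
      else if 1 - (D.genus : ℤ) ≤ i then v (.inl (p, (i - (1 - (D.genus : ℤ))).toNat)) else 0 := by
  rw [mser, HahnSeries.coeff_add, HahnSeries.coeff_single, HahnSeries.coeff_single_mul, one_mul,
    PowerSeries.coeff_coe]
  by_cases h1 : i = -((D.genus + p.1 : ℕ) : ℤ)
  · rw [if_pos h1, if_pos h1, if_pos (by omega), add_zero]
  · rw [if_neg h1, if_neg h1, zero_add]
    by_cases h2 : 1 - (D.genus : ℤ) ≤ i
    · rw [if_neg (by omega), if_pos h2, PowerSeries.coeff_mk]
      congr 3
      omega
    · rw [if_pos (by omega), if_neg h2]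

/-- The echelon family. -/
def bFam (v : D.Var → B) (q : ℕ) : LaurentSeries B :=
  if h : q ∈ D.gaps then D.mser v ⟨q, h⟩ else D.eFun B q * HahnSeries.single (-(D.genus : ℤ)) 1

theorem isTri_bFam (v : D.Var → B) : IsTri D.genus Set.univ (D.bFam v) := fun q _ => by
  by_cases h : q ∈ D.gaps
  · rw [bFam, dif_pos h]
    refine ⟨by rw [mser_coeff, if_pos rfl], fun i hi => ?_⟩
    rw [mser_coeff, if_neg hi.ne, if_neg (by omega)]
  · rw [bFam, dif_neg h]
    obtain ⟨h1, h2⟩ := D.isTri_eFun B q h
    refine ⟨?_, fun i hi => ?_⟩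
    · rw [HahnSeries.coeff_mul_single, mul_one, show -((D.genus + q : ℕ) : ℤ) - -(D.genus : ℤ) =
        -((0 + q : ℕ) : ℤ) by push_cast; ring]
      exact h1
    · rw [HahnSeries.coeff_mul_single, mul_one]
      exact h2 _ (by push_cast at hi ⊢; omega)

/-- The defect of stability. -/
def diff (v : D.Var → B) (sp : D.gens × D.gaps) : LaurentSeries B :=
  D.embC B sp.1.1 * D.mser v sp.2 -
    ∑ q : Fin (D.poleBound sp.1.1 + sp.2.1 + 1), v (.inr ⟨sp, q⟩) • D.bFam v q

/-- The parameters of submodules stable under the functions. -/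
def IsSol (v : D.Var → B) : Prop := ∀ sp, D.diff v sp = 0

variable {B' : Type u} [CommRing B'] [Algebra k B'] (φ : B →ₐ[k] B')

theorem coeffMapₐ_mser (v : D.Var → B) (p : D.gaps) :
    coeffMapₐ φ (D.mser v p) = D.mser (φ ∘ v) p := by
  ext i
  rw [coeffMapₐ_coeff, mser_coeff, mser_coeff]
  split_ifs <;> simp

theorem coeffMapₐ_bFam (v : D.Var → B) (q : ℕ) :
    coeffMapₐ φ (D.bFam v q) = D.bFam (φ ∘ v) q := by
  unfold bFam
  split
  · exact D.coeffMapₐ_mser φ v _
  · rw [map_mul, eFun, coeffMapₐ_embC, coeffMapₐ_single, map_one]; rfl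

theorem coeffMapₐ_diff (v : D.Var → B) (sp : D.gens × D.gaps) :
    coeffMapₐ φ (D.diff v sp) = D.diff (φ ∘ v) sp := by
  simp only [diff, map_sub, map_mul, map_sum, coeffMapₐ_embC, coeffMapₐ_mser, coeffMapₐ_smul_series,
    coeffMapₐ_bFam, Function.comp_apply]

variable {D}

theorem IsSol.map {v : D.Var → B} (h : D.IsSol v) : D.IsSol (φ ∘ v) := fun sp => by
  rw [← coeffMapₐ_diff, h sp, map_zero]

variable (D)

/-- The module of the parameters. -/
def modSpan (v : D.Var → B) : Submodule B (LaurentSeries B) :=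
  Submodule.span B (Set.range (D.bFam v))

theorem single_mem_modSpan (v : D.Var → B) :
    HahnSeries.single (-(D.genus : ℤ)) (1 : B) ∈ D.modSpan v := by
  have h0 := D.zero_notMem_gaps
  obtain ⟨r, hr⟩ := D.eq_const (D.aFun 0) fun i hi => (D.aFun_spec h0).2 i (by simpa using hi)
  have h1 := (D.aFun_spec h0).1
  rw [hr, AlgHom.commutes, HahnSeries.algebraMap_apply] at h1
  simp [HahnSeries.C_apply] at h1
  have he : D.eFun B 0 = 1 := by rw [eFun, hr, h1, map_one, map_one]
  refine Submodule.subset_span ⟨0, ?_⟩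
  rw [bFam, dif_neg h0, he, one_mul]

theorem mul_single_mem_modSpan (v : D.Var → B) {x : LaurentSeries B} (hx : x ∈ D.reg B) :
    x * HahnSeries.single (-(D.genus : ℤ)) 1 ∈ D.modSpan v := by
  obtain ⟨a, ha, rfl⟩ := D.exists_of_mem_reg hx
  rw [Finsupp.linearCombination_apply, Finsupp.sum, Finset.sum_mul]
  refine sum_mem fun n hn => ?_
  rw [smul_mul_assoc]
  refine Submodule.smul_mem _ _ (Submodule.subset_span ⟨n, ?_⟩)
  rw [bFam, dif_neg (ha hn : n ∉ D.gaps)]

variable {D} in
theorem IsSol.embC_mul_mem {v : D.Var → B} (h : D.IsSol v) (a : D.A) {x : LaurentSeries B}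
    (hx : x ∈ D.modSpan v) : D.embC B a * x ∈ D.modSpan v := by
  revert x
  have ha : a ∈ Algebra.adjoin k (D.gens : Set D.A) := by rw [adjoin_gens]; trivial
  induction ha using Algebra.adjoin_induction with
  | mem f hf =>
    intro x hx
    induction hx using Submodule.span_induction with
    | mem y hy =>
      obtain ⟨q, rfl⟩ := hy
      by_cases hq : q ∈ D.gaps
      · have he := sub_eq_zero.mp (h (⟨f, hf⟩, ⟨q, hq⟩))
        rw [bFam, dif_pos hq]
        rw [he]
        exact sum_mem fun j _ => Submodule.smul_mem _ _ (Submodule.subset_span ⟨_, rfl⟩)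
      · rw [bFam, dif_neg hq, ← mul_assoc]
        exact D.mul_single_mem_modSpan v (mul_mem (D.embC_mem_reg B f) (D.embC_mem_reg B _))
    | zero => rw [mul_zero]; exact zero_mem _
    | add y z _ _ hy hz => rw [mul_add]; exact add_mem hy hz
    | smul b y _ hy => rw [mul_smul_comm]; exact Submodule.smul_mem _ _ hy
  | algebraMap r =>
    intro x hx
    rw [AlgHom.commutes, HahnSeries.algebraMap_apply,
      HahnSeries.C_mul_eq_smul]
    exact Submodule.smul_mem _ _ hx
  | add f f' _ _ hf hf' => intro x hx; rw [map_add, add_mul]; exact add_mem (hf hx) (hf' hx)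
  | mul f f' _ _ hf hf' => intro x hx; rw [map_mul, mul_assoc]; exact hf (hf' hx)

variable {D} in
theorem IsSol.reg_mul_mem {v : D.Var → B} (h : D.IsSol v) {r x : LaurentSeries B}
    (hr : r ∈ D.reg B) (hx : x ∈ D.modSpan v) : r * x ∈ D.modSpan v := by
  obtain ⟨a, -, rfl⟩ := D.exists_of_mem_reg hr
  rw [Finsupp.linearCombination_apply, Finsupp.sum, Finset.sum_mul]
  refine sum_mem fun n _ => ?_
  rw [smul_mul_assoc]
  exact Submodule.smul_mem _ _ (h.embC_mul_mem _ hx)

/-- The submodule of the parameters over the coordinate ring. -/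
def regMod {v : D.Var → B} (h : D.IsSol v) : Submodule (D.reg B) (LaurentSeries B) where
  carrier := D.modSpan v
  add_mem' := (D.modSpan v).add_mem
  zero_mem' := (D.modSpan v).zero_mem
  smul_mem' r _ hx := h.reg_mul_mem r.2 hx

theorem mem_regMod {v : D.Var → B} (h : D.IsSol v) {x : LaurentSeries B} :
    x ∈ D.regMod h ↔ x ∈ D.modSpan v := Iff.rfl

theorem regMod_fg {v : D.Var → B} (h : D.IsSol v) : (D.regMod h).FG := by
  refine ⟨insert (HahnSeries.single (-(D.genus : ℤ)) (1 : B)) (Finset.univ.image (D.mser v)),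
    le_antisymm (Submodule.span_le.mpr ?_) fun x hx => ?_⟩
  · intro y hy
    simp only [Finset.coe_insert, Finset.coe_image, Finset.coe_univ, Set.image_univ,
      Set.mem_insert_iff, Set.mem_range] at hy
    rcases hy with rfl | ⟨p, rfl⟩
    · exact D.single_mem_modSpan v
    · exact Submodule.subset_span ⟨p.1, by rw [bFam, dif_pos p.2]⟩
  · rw [mem_regMod] at hx
    induction hx using Submodule.span_induction with
    | mem y hy =>
      obtain ⟨q, rfl⟩ := hy
      by_cases hq : q ∈ D.gaps
      · rw [bFam, dif_pos hq]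
        exact Submodule.subset_span (by simp)
      · rw [bFam, dif_neg hq]
        exact Submodule.smul_mem _ (⟨_, D.embC_mem_reg B (D.aFun q)⟩ : D.reg B)
          (Submodule.subset_span (by simp))
    | zero => exact zero_mem _
    | add y z _ _ hy hz => exact add_mem hy hz
    | smul b y _ hy =>
      have e : b • y = (algebraMap B (D.reg B) b) • y := by
        rw [IsScalarTower.algebraMap_smul]
      rw [e]
      exact Submodule.smul_mem _ _ hy

/-! ### The characteristic matrix of the chosen function -/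

/-- Multiplication by the chosen function modulo the trivial part. -/
def tMat (v : D.Var → B) : Matrix D.gaps D.gaps (D.reg B) := Matrix.of fun p r =>
  (if p = r then (⟨_, D.embC_mem_reg B D.f0⟩ : D.reg B) else 0) -
    ∑ q : Fin (D.poleBound D.f0 + p.1 + 1),
      if (q : ℕ) = r.1 then algebraMap B (D.reg B) (v (.inr ⟨(⟨D.f0, D.f0_mem_gens⟩, p), q⟩)) else 0

/-- The trivial part of the image of the basis. -/
def aVec (v : D.Var → B) (p : D.gaps) : D.reg B :=
  ∑ q : Fin (D.poleBound D.f0 + p.1 + 1),
    if (q : ℕ) ∈ D.gaps then 0 else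
      v (.inr ⟨(⟨D.f0, D.f0_mem_gens⟩, p), q⟩) • (⟨_, D.embC_mem_reg B (D.aFun q)⟩ : D.reg B)

/-- The matrix in series. -/
def tSer (v : D.Var → B) : Matrix D.gaps D.gaps (LaurentSeries B) := (D.tMat v).map Subtype.val

/-- The vector in series. -/
def aSer (v : D.Var → B) (p : D.gaps) : LaurentSeries B :=
  (D.aVec v p : LaurentSeries B) * HahnSeries.single (-(D.genus : ℤ)) 1

theorem tSer_apply (v : D.Var → B) (p r : D.gaps) :
    D.tSer v p r = (if p = r then D.embC B D.f0 else 0) -
      ∑ q : Fin (D.poleBound D.f0 + p.1 + 1), if (q : ℕ) = r.1 then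
        v (.inr ⟨(⟨D.f0, D.f0_mem_gens⟩, p), q⟩) • (1 : LaurentSeries B) else 0 := by
  simp only [tSer, tMat, Matrix.map_apply, Matrix.of_apply, AddSubgroupClass.coe_sub,
    AddSubmonoidClass.coe_finsetSum, apply_ite Subtype.val, ZeroMemClass.coe_zero]
  congr 1
  refine Finset.sum_congr rfl fun q _ => ?_
  split_ifs
  · rw [Algebra.algebraMap_eq_smul_one]; rfl
  · rfl

variable {D} in
theorem IsSol.tSer_mulVec {v : D.Var → B} (h : D.IsSol v) :
    Matrix.mulVec (D.tSer v) (D.mser v) = D.aSer v := by
  funext p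
  have he := sub_eq_zero.mp (h (⟨D.f0, D.f0_mem_gens⟩, p))
  change D.embC B D.f0 * D.mser v p = _ at he
  simp only [Matrix.mulVec, dotProduct, tSer_apply, sub_mul, Finset.sum_sub_distrib, ite_mul,
    zero_mul, Finset.sum_ite_eq, Finset.mem_univ, if_true, Finset.sum_mul, smul_mul_assoc, one_mul]
  rw [he, aSer, aVec, AddSubmonoidClass.coe_finsetSum, Finset.sum_mul, Finset.sum_comm,
    ← Finset.sum_sub_distrib]
  refine Finset.sum_congr rfl fun q _ => ?_
  by_cases hq : (q : ℕ) ∈ D.gaps
  · rw [if_pos hq, Finset.sum_eq_single (⟨q, hq⟩ : D.gaps)]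
    · rw [if_pos rfl, bFam, dif_pos hq, sub_self, ZeroMemClass.coe_zero, zero_mul]
    · exact fun r _ hr => if_neg fun e => hr (Subtype.ext e.symm)
    · exact fun hh => absurd (Finset.mem_univ _) hh
  · rw [if_neg hq, Finset.sum_eq_zero fun r _ => if_neg fun e => hq (by rw [e]; exact r.2),
      sub_zero, bFam, dif_neg hq, SetLike.val_smul, smul_mul_assoc]
    rfl

theorem isUnit_det_tSer (v : D.Var → B) : IsUnit (D.tSer v).det := by
  set d := D.f0Deg
  let N : Matrix D.gaps D.gaps (PowerSeries B) := Matrix.of fun p r =>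
    (if p = r then PowerSeries.mk fun n => (D.embC B D.f0).coeff ((n : ℤ) - d) else 0) -
      PowerSeries.X ^ d * ∑ q : Fin (D.poleBound D.f0 + p.1 + 1), if (q : ℕ) = r.1 then
        PowerSeries.C (v (.inr ⟨(⟨D.f0, D.f0_mem_gens⟩, p), q⟩)) else 0
  have hd : 0 < d := Nat.succ_pos _
  have hN : (HahnSeries.ofPowerSeries ℤ B).mapMatrix N =
      (HahnSeries.single (d : ℤ) (1 : B)) • D.tSer v := by
    refine Matrix.ext fun p r => ?_
    simp only [RingHom.mapMatrix_apply, Matrix.map_apply, Matrix.smul_apply, smul_eq_mul, N,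
      Matrix.of_apply, map_sub, map_mul, map_sum, tSer_apply, mul_sub, apply_ite, map_zero,
      HahnSeries.ofPowerSeries_X_pow, HahnSeries.ofPowerSeries_C, mul_zero]
    congr 1
    · split_ifs
      · ext i
        rw [PowerSeries.coeff_coe, HahnSeries.coeff_single_mul, one_mul]
        split_ifs with hi
        · rw [embC_coeff, f0, (D.aFun_spec D.f0Deg_notMem).2 _ (by omega), map_zero]
        · rw [PowerSeries.coeff_mk]
          congr 2
          omega
      · rfl
    · congr 1
      refine Finset.sum_congr rfl fun q _ => ?_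
      split_ifs
      · rw [← HahnSeries.C_mul_eq_smul, mul_one]
      · rfl
  have hc : IsUnit N.det := by
    rw [PowerSeries.isUnit_iff_constantCoeff, RingHom.map_det]
    have h1 : PowerSeries.constantCoeff.mapMatrix N = (1 : Matrix D.gaps D.gaps B) := by
      refine Matrix.ext fun p r => ?_
      simp only [RingHom.mapMatrix_apply, Matrix.map_apply, N, Matrix.of_apply, map_sub, map_mul,
        map_pow, PowerSeries.constantCoeff_X, zero_pow hd.ne', zero_mul, sub_zero]
      rw [Matrix.one_apply]
      split_ifs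
      · rw [PowerSeries.constantCoeff_mk, embC_coeff, f0]
        simp only [Nat.cast_zero, zero_sub]
        rw [(D.aFun_spec D.f0Deg_notMem).1, map_one]
      · simp
    rw [h1, Matrix.det_one]
    exact isUnit_one
  have h2 := hc.map (HahnSeries.ofPowerSeries ℤ B)
  rw [RingHom.map_det, hN, Matrix.det_smul] at h2
  exact isUnit_of_mul_isUnit_right h2

theorem det_tSer (v : D.Var → B) : (D.tSer v).det = ((D.tMat v).det : LaurentSeries B) :=
  ((D.reg B).val.toRingHom.map_det (D.tMat v)).symm

variable {D} in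
theorem IsSol.det_mul_mem {v : D.Var → B} (h : D.IsSol v) {x : LaurentSeries B}
    (hx : x ∈ D.modSpan v) :
    (D.tSer v).det * x * HahnSeries.single (D.genus : ℤ) 1 ∈ D.reg B := by
  have hs : HahnSeries.single (-(D.genus : ℤ)) (1 : B) * HahnSeries.single (D.genus : ℤ) 1 = 1 := by
    rw [HahnSeries.single_mul_single, neg_add_cancel, one_mul]; rfl
  induction hx using Submodule.span_induction with
  | mem y hy =>
    obtain ⟨q, rfl⟩ := hy
    by_cases hq : q ∈ D.gaps
    · rw [bFam, dif_pos hq]
      have h1 : Matrix.mulVec (D.tSer v).adjugate (D.aSer v) ⟨q, hq⟩ =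
          (D.tSer v).det * D.mser v ⟨q, hq⟩ := by
        rw [← h.tSer_mulVec, Matrix.mulVec_mulVec, Matrix.adjugate_mul, Matrix.smul_mulVec,
          Matrix.one_mulVec]
        rfl
      rw [← h1, Matrix.mulVec, dotProduct, Finset.sum_mul]
      refine sum_mem fun r _ => ?_
      rw [show D.tSer v = (D.reg B).val.toRingHom.mapMatrix (D.tMat v) from rfl,
        ← RingHom.map_adjugate, aSer, mul_assoc, mul_assoc, hs, mul_one]
      exact mul_mem (SetLike.coe_mem _) (SetLike.coe_mem _)
    · rw [bFam, dif_neg hq, mul_assoc, mul_assoc, hs, mul_one, det_tSer]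
      exact mul_mem (SetLike.coe_mem _) (D.embC_mem_reg B _)
  | zero => rw [mul_zero, zero_mul]; exact zero_mem _
  | add y z _ _ hy hz => rw [mul_add, add_mul]; exact add_mem hy hz
  | smul b y _ hy => rw [mul_smul_comm, smul_mul_assoc]; exact (D.reg B).smul_mem hy b

theorem coeffMapₐ_tSer (v : D.Var → B) :
    (D.tSer v).map (coeffMapₐ φ) = D.tSer (φ ∘ v) := by
  refine Matrix.ext fun p r => ?_
  simp only [Matrix.map_apply, tSer_apply, map_sub, map_sum, apply_ite (coeffMapₐ φ), map_zero,
    coeffMapₐ_embC, coeffMapₐ_smul_series, map_one, Function.comp_apply]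

theorem coeffMapₐ_aSer (v : D.Var → B) (p : D.gaps) :
    coeffMapₐ φ (D.aSer v p) = D.aSer (φ ∘ v) p := by
  simp only [aSer, aVec, map_mul, AddSubmonoidClass.coe_finsetSum, map_sum, coeffMapₐ_single,
    map_one]
  congr 1
  refine Finset.sum_congr rfl fun q _ => ?_
  split_ifs
  · simp
  · simp [coeffMapₐ_smul_series, coeffMapₐ_embC]

end CurveData

end Fermat.Agent.Jac
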