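/-
S25, unit U3: the submodule of a solution over an algebra of finite type is invertible.
-/
import Fermat.Agent.Jac.Chart.Sol
import Mathlib.RingTheory.Finiteness.Nakayama
import Mathlib.RingTheory.Jacobson.Ring
import Mathlib.RingTheory.FiniteStability
import Mathlib.FieldTheory.IsAlgClosed.Basic
import Mathlib.RingTheory.DedekindDomain.Ideal.Basic

set_option autoImplicit false
set_option linter.unusedSectionVars false
set_option linter.style.haveILetI false

noncomputable section

universe u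

open scoped TensorProduct
open scoped Classical

namespace Fermat.Agent.Jac.CurveData

variable {k : Type u} [Field k] (D : CurveData k)
variable {B : Type u} [CommRing B] [Algebra k B]

theorem exists_embC_eq {x : LaurentSeries k} (hx : x ∈ D.reg k) : ∃ a : D.A, D.embC k a = x := by
  obtain ⟨c, -, rfl⟩ := D.exists_of_mem_reg hx
  refine ⟨Finsupp.linearCombination k D.aFun c, ?_⟩
  rw [← AlgHom.coe_toLinearMap, Finsupp.apply_linearCombination]
  rfl

/-- Lifting along a rational point. -/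
theorem exists_lift_modSpan (r : B →ₐ[k] k) (v : D.Var → B) {x : LaurentSeries k}
    (hx : x ∈ D.modSpan (r ∘ v)) : ∃ y ∈ D.modSpan v, coeffMapₐ r y = x := by
  induction hx using Submodule.span_induction with
  | mem z hz =>
    obtain ⟨q, rfl⟩ := hz
    exact ⟨D.bFam v q, Submodule.subset_span ⟨q, rfl⟩, D.coeffMapₐ_bFam r v q⟩
  | zero => exact ⟨0, zero_mem _, map_zero _⟩
  | add y z _ _ hy hz =>
    obtain ⟨y', h1, rfl⟩ := hy
    obtain ⟨z', h2, rfl⟩ := hz
    exact ⟨y' + z', add_mem h1 h2, map_add _ _ _⟩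
  | smul c y _ hy =>
    obtain ⟨y', h1, rfl⟩ := hy
    refine ⟨algebraMap k B c • y', Submodule.smul_mem _ _ h1, ?_⟩
    rw [coeffMapₐ_smul_series, AlgHom.commutes]
    rfl

theorem map_mem_modSpan (r : B →ₐ[k] k) (v : D.Var → B) {x : LaurentSeries B}
    (hx : x ∈ D.modSpan v) : coeffMapₐ r x ∈ D.modSpan (r ∘ v) := by
  induction hx using Submodule.span_induction with
  | mem z hz =>
    obtain ⟨q, rfl⟩ := hz
    rw [coeffMapₐ_bFam]
    exact Submodule.subset_span ⟨q, rfl⟩
  | zero => rw [map_zero]; exact zero_mem _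
  | add y z _ _ hy hz => rw [map_add]; exact add_mem hy hz
  | smul c y _ hy => rw [coeffMapₐ_smul_series]; exact Submodule.smul_mem _ _ hy

/-- In a Dedekind domain an ideal is generated by one element modulo a maximal ideal times it. -/
theorem exists_generator_mod {A : Type*} [CommRing A] [IsDedekindDomain A]
    (I m : Ideal A) (hI : I ≠ ⊥) (hm : m.IsMaximal) :
    ∃ u ∈ I, I ≤ Ideal.span {u} ⊔ m * I := by
  have hlt : m * I < I := by
    refine lt_of_le_of_ne Ideal.mul_le_right fun e => hm.ne_top ?_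
    have h1 : m * I = 1 * I := by rw [one_mul]; exact e
    exact (mul_right_cancel₀ hI h1).trans Ideal.one_eq_top
  obtain ⟨u, hu, hu'⟩ := SetLike.exists_of_lt hlt
  refine ⟨u, hu, ?_⟩
  have hle : Ideal.span {u} ⊔ m * I ≤ I := sup_le (by simpa [Ideal.span_le] using hu) Ideal.mul_le_right
  obtain ⟨L, hL⟩ := Ideal.dvd_iff_le.mpr hle
  have hmL : m ≤ L := by
    rw [← Ideal.dvd_iff_le, ← mul_dvd_mul_iff_left hI, ← hL, Ideal.dvd_iff_le, mul_comm I m]
    exact le_sup_right
  have hne : m ≠ L := fun e => hu' <| by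
    rw [mul_comm, e, ← hL]
    exact Ideal.mem_sup_left (Ideal.mem_span_singleton_self u)
  rw [hL, show L = ⊤ by
    by_contra h
    exact hne (hm.eq_of_le h hmL), Ideal.mul_top]

/-- The expansion with values in its image. -/
def toReg (B : Type u) [CommRing B] [Algebra k B] : D.Coord B →ₐ[B] D.reg B :=
  (D.embB B).rangeRestrict

theorem toReg_coe (z : D.Coord B) : (D.toReg B z : LaurentSeries B) = D.embB B z := rfl

theorem toReg_surjective : Function.Surjective (D.toReg B) := (D.embB B).rangeRestrict_surjective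

variable [IsAlgClosed k] [Algebra.FiniteType k B]

theorem exists_point_of_maximal (P : Ideal (D.reg B)) [P.IsMaximal] :
    ∃ ψ : D.Coord B →ₐ[k] k, ∀ z : D.Coord B, D.toReg B z ∈ P ↔ ψ z = 0 := by
  have hs : Function.Surjective (D.toReg B) := D.toReg_surjective
  let M : Ideal (D.Coord B) := P.comap (D.toReg B).toRingHom
  haveI hM : M.IsMaximal := Ideal.comap_isMaximal_of_surjective (D.toReg B).toRingHom hs
  letI := Ideal.Quotient.field M
  haveI hB : Algebra.FiniteType B (D.Coord B) := Algebra.FiniteType.baseChange B (R := k) (A := D.A)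
  haveI : Algebra.FiniteType k (D.Coord B) := Algebra.FiniteType.trans (S := B) inferInstance hB
  haveI : Algebra.FiniteType k (D.Coord B ⧸ M) :=
    Algebra.FiniteType.of_surjective (Ideal.Quotient.mkₐ k M) Ideal.Quotient.mk_surjective
  haveI : Module.Finite k (D.Coord B ⧸ M) := finite_of_finite_type_of_isJacobsonRing k _
  haveI : Algebra.IsIntegral k (D.Coord B ⧸ M) := Algebra.IsIntegral.of_finite _ _
  let e : k ≃ₐ[k] (D.Coord B ⧸ M) := AlgEquiv.ofBijective (Algebra.ofId k _)
    IsAlgClosed.algebraMap_bijective_of_isIntegral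
  refine ⟨(e.symm : (D.Coord B ⧸ M) →ₐ[k] k).comp (Ideal.Quotient.mkₐ k M), fun z => ?_⟩
  change z ∈ M ↔ e.symm (Ideal.Quotient.mk M z) = 0
  rw [map_eq_zero_iff _ e.symm.injective, Ideal.Quotient.eq_zero_iff_mem]

variable {D} in
theorem IsSol.isUnit_regMod {v : D.Var → B} (h : D.IsSol v) : IsUnit (D.regMod h) := by
  refine isUnit_iff_exists_inv.mpr ⟨1 / D.regMod h,
    le_antisymm Submodule.mul_one_div_le_one (Submodule.one_le.mpr ?_)⟩
  let J : Ideal (D.reg B) := Submodule.comap (Algebra.linearMap (D.reg B) (LaurentSeries B))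
    (D.regMod h * (1 / D.regMod h))
  by_cases hJ : J = ⊤
  · have h1 : (1 : D.reg B) ∈ J := by rw [hJ]; trivial
    simpa [J] using h1
  exfalso
  obtain ⟨P, hPmax, hJP⟩ := Ideal.exists_le_maximal J hJ
  obtain ⟨ψ, hψ⟩ := D.exists_point_of_maximal P
  let r : B →ₐ[k] k := ψ.comp (Algebra.TensorProduct.includeLeft (S := k))
  let α : D.A →ₐ[k] k := ψ.comp Algebra.TensorProduct.includeRight
  have hPb : ∀ b : B, r b = 0 → algebraMap B (D.reg B) b ∈ P := fun b hb => by
    have h2 := (hψ (b ⊗ₜ[k] (1 : D.A))).mpr hb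
    rwa [show D.toReg B (b ⊗ₜ[k] (1 : D.A)) = algebraMap B (D.reg B) b from
      Subtype.ext ((D.embB_tmul_embC B b 1).trans (by rw [map_one, Algebra.algebraMap_eq_smul_one]; rfl))] at h2
  have hPa : ∀ a : D.A, α a = 0 → (⟨_, D.embC_mem_reg B a⟩ : D.reg B) ∈ P := fun a ha => by
    have h2 := (hψ ((1 : B) ⊗ₜ[k] a)).mpr ha
    rwa [show D.toReg B ((1 : B) ⊗ₜ[k] a) = ⟨_, D.embC_mem_reg B a⟩ from
      Subtype.ext (D.embC_apply B a).symm] at h2
  -- the fibre
  set vk := r ∘ v
  have hk : D.IsSol vk := h.map r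
  set c : LaurentSeries k := (D.tSer vk).det * HahnSeries.single (D.genus : ℤ) 1
  have hc : IsUnit c := (D.isUnit_det_tSer vk).mul (xPow k D.genus).isUnit
  have hmem : ∀ x ∈ D.modSpan vk, ∃ a : D.A, D.embC k a = c * x := fun x hx => by
    refine D.exists_embC_eq ?_
    rw [mul_right_comm]
    exact hk.det_mul_mem hx
  let I : Ideal D.A :=
    { carrier := {a | ∃ x ∈ D.modSpan vk, D.embC k a = c * x}
      add_mem' := by
        rintro a b ⟨x, hx, e⟩ ⟨y, hy, e'⟩
        exact ⟨x + y, add_mem hx hy, by rw [map_add, e, e', mul_add]⟩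
      zero_mem' := ⟨0, zero_mem _, by rw [map_zero, mul_zero]⟩
      smul_mem' := by
        rintro b a ⟨x, hx, e⟩
        exact ⟨D.embC k b * x, hk.embC_mul_mem b hx, by rw [smul_eq_mul, map_mul, e, mul_left_comm]⟩ }
  have hI : I ≠ ⊥ := fun e => by
    obtain ⟨a, ha⟩ := hmem _ (D.single_mem_modSpan vk)
    have : a ∈ I := ⟨_, D.single_mem_modSpan vk, ha⟩
    rw [e, Submodule.mem_bot] at this
    rw [this, map_zero] at ha
    exact (hc.mul (xPow k (-(D.genus : ℤ))).isUnit).ne_zero ha.symm
  obtain ⟨u, ⟨x₀, hx₀, hu⟩, hIu⟩ := exists_generator_mod I (RingHom.ker α) hI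
    (RingHom.ker_isMaximal_of_surjective α fun y => ⟨algebraMap k D.A y, AlgHom.commutes α y⟩)
  obtain ⟨w, hw, rfl⟩ := D.exists_lift_modSpan r v hx₀
  set W := D.regMod h
  set N : Submodule (D.reg B) (LaurentSeries B) := Submodule.span (D.reg B) {w}
  -- elements vanishing at the point
  have hzero : ∀ y ∈ W, coeffMapₐ r y = 0 → y ∈ P • W := by
    intro y hy hy0
    obtain ⟨a, rfl⟩ := Finsupp.mem_span_range_iff_exists_finsupp.mp ((D.mem_regMod h).mp hy)
    have hz : ∀ n, a n ∈ RingHom.ker r := fun n =>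
      (D.isTri_bFam v).mem_of_coeff_mem (RingHom.ker r) (Set.subset_univ _) 0 (fun m _ =>
        RingHom.mem_ker.mpr (by
          rw [← coeffMapₐ_coeff, Finsupp.linearCombination_apply, hy0]; rfl)) n (Nat.zero_le n)
    refine sum_mem fun n _ => ?_
    change a n • D.bFam v n ∈ _
    rw [← IsScalarTower.algebraMap_smul (D.reg B) (a n)]
    exact Submodule.smul_mem_smul (hPb _ (hz n)) (Submodule.subset_span ⟨n, rfl⟩ : D.bFam v n ∈ D.modSpan v)
  -- lifting of elements of the small ideal
  have hsmall : ∀ a ∈ RingHom.ker α * I, ∃ y ∈ P • W, c * coeffMapₐ r y = D.embC k a := by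
    intro a ha
    refine Submodule.mul_induction_on ha (fun m hm i hi => ?_) fun a b ha hb => ?_
    · obtain ⟨x, hx, e⟩ := hi
      obtain ⟨y, hy, rfl⟩ := D.exists_lift_modSpan r v hx
      refine ⟨(⟨_, D.embC_mem_reg B m⟩ : D.reg B) • y,
        Submodule.smul_mem_smul (hPa m hm) hy, ?_⟩
      rw [map_mul, e, Subalgebra.smul_def, smul_eq_mul, map_mul, coeffMapₐ_embC, mul_left_comm]
    · obtain ⟨y, hy, e⟩ := ha
      obtain ⟨z, hz, e'⟩ := hb
      exact ⟨y + z, add_mem hy hz, by rw [map_add, mul_add, e, e', map_add]⟩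
  have hsplit : W ≤ N ⊔ P • W := by
    intro y hy
    obtain ⟨a, ha⟩ := hmem _ (D.map_mem_modSpan r v hy)
    obtain ⟨s, hs, m, hm, e⟩ := Submodule.mem_sup.mp (hIu ⟨_, D.map_mem_modSpan r v hy, ha⟩)
    obtain ⟨b, rfl⟩ := Ideal.mem_span_singleton'.mp hs
    obtain ⟨z, hz, ez⟩ := hsmall m hm
    set b' : D.reg B := ⟨_, D.embC_mem_reg B b⟩
    have hzW : z ∈ W := Submodule.smul_le_right hz
    have h0 : coeffMapₐ r (y - (b' • w + z)) = 0 := by
      refine hc.mul_right_eq_zero.mp ?_
      rw [map_sub, map_add, Subalgebra.smul_def, smul_eq_mul, map_mul, coeffMapₐ_embC, mul_sub,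
        mul_add, ez, mul_left_comm, ← hu, ← map_mul, ← map_add, e, ha, sub_self]
    have hy' := hzero _ (sub_mem hy (add_mem (W.smul_mem b' hw) hzW)) h0
    rw [← sub_add_cancel y (b' • w + z)]
    refine add_mem (Submodule.mem_sup_right hy') (add_mem ?_ (Submodule.mem_sup_right hz))
    exact Submodule.mem_sup_left (Submodule.smul_mem _ _ (Submodule.mem_span_singleton_self w))
  -- Nakayama
  obtain ⟨s, hs1, hs⟩ := Submodule.exists_sub_one_mem_and_smul_eq_zero_of_fg_of_le_smul P
    (W.map N.mkQ) ((D.regMod_fg h).map _) (by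
      have h2 := Submodule.map_mono (f := N.mkQ) hsplit
      rwa [Submodule.map_sup, Submodule.map_smul'', Submodule.mkQ_map_self, bot_sup_eq] at h2)
  have hsW : ∀ y ∈ W, ∃ b : D.reg B, (b : LaurentSeries B) * w = s * y := fun y hy => by
    have h2 := hs _ (Submodule.mem_map_of_mem hy)
    rw [← map_smul, Submodule.mkQ_apply, Submodule.Quotient.mk_eq_zero] at h2
    exact Submodule.mem_span_singleton.mp h2
  obtain ⟨r', hr'⟩ := hsW _ (D.single_mem_modSpan v)
  set t : LaurentSeries B := HahnSeries.single (D.genus : ℤ) 1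
  have ht : HahnSeries.single (-(D.genus : ℤ)) (1 : B) * t = 1 := (xPow B D.genus).inv_val
  have hxw : ((r' : LaurentSeries B) * t) * w = s := by
    rw [mul_right_comm, hr', mul_assoc, ht, mul_one]
  have hxdiv : (s : LaurentSeries B) * ((r' : LaurentSeries B) * t) ∈ 1 / W := by
    refine Submodule.mem_div_iff_forall_mul_mem.mpr fun y hy => ?_
    obtain ⟨b, hb⟩ := hsW y hy
    refine Submodule.mem_one.mpr ⟨s * b, ?_⟩
    calc ((s * b : D.reg B) : LaurentSeries B) = (b : LaurentSeries B) * s := by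
          rw [MulMemClass.coe_mul, mul_comm]
      _ = (b : LaurentSeries B) * (((r' : LaurentSeries B) * t) * w) := by rw [hxw]
      _ = ((r' : LaurentSeries B) * t) * (s * y) := by rw [← hb]; ring
      _ = _ := by ring
  have hJs : s * s ∈ J := by
    change ((s * s : D.reg B) : LaurentSeries B) ∈ W * (1 / W)
    have h2 : w * ((s : LaurentSeries B) * ((r' : LaurentSeries B) * t)) ∈ W * (1 / W) :=
      Submodule.mul_mem_mul (M := W) hw hxdiv
    rwa [mul_comm w, mul_assoc, hxw] at h2
  have hsP : s ∈ P := (hPmax.isPrime.mem_or_mem (hJP hJs)).elim id id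
  exact hPmax.ne_top ((Ideal.eq_top_iff_one P).mpr (by simpa using sub_mem hsP hs1))

end Fermat.Agent.Jac.CurveData
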