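/-
S25, unit U3: the universal solution, finiteness of its ring, classification of normalised submodules.
-/
import Fermat.Agent.Jac.Chart.Invertible

set_option autoImplicit false
set_option linter.unusedSectionVars false

noncomputable section

universe u

open scoped TensorProduct
open scoped Classical

namespace Fermat.Agent.Jac.CurveData

variable {k : Type u} [Field k] (D : CurveData k)
variable {B B' : Type u} [CommRing B] [Algebra k B] [CommRing B'] [Algebra k B']

theorem mser_congr {v w : D.Var → B} (h : ∀ x, v (.inl x) = w (.inl x)) : D.mser v = D.mser w := by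
  funext p
  ext i
  simp only [mser_coeff, h]

theorem bFam_congr {v w : D.Var → B} (h : ∀ x, v (.inl x) = w (.inl x)) : D.bFam v = D.bFam w := by
  funext q
  simp only [bFam, D.mser_congr h]

theorem tSer_congr {v w : D.Var → B} (h : ∀ x, v (.inr x) = w (.inr x)) : D.tSer v = D.tSer w := by
  refine Matrix.ext fun p r => ?_
  simp only [tSer_apply, h]

theorem aSer_congr {v w : D.Var → B} (h : ∀ x, v (.inr x) = w (.inr x)) : D.aSer v = D.aSer w := by
  funext p
  simp only [aSer, aVec, h]

/-- The relations. -/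
def relIdeal : Ideal (MvPolynomial D.Var k) :=
  Ideal.span (Set.range fun x : (D.gens × D.gaps) × ℤ =>
    (D.diff (MvPolynomial.X : D.Var → MvPolynomial D.Var k) x.1).coeff x.2)

/-- The coordinate ring of the chart. -/
abbrev chartRing : Type u := MvPolynomial D.Var k ⧸ D.relIdeal

/-- The universal parameters. -/
def univSol (x : D.Var) : D.chartRing := Ideal.Quotient.mkₐ k D.relIdeal (MvPolynomial.X x)

theorem isSol_univSol : D.IsSol D.univSol := fun sp => by
  rw [show D.univSol = Ideal.Quotient.mkₐ k D.relIdeal ∘ MvPolynomial.X from rfl, ← coeffMapₐ_diff]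
  ext i
  exact Ideal.Quotient.eq_zero_iff_mem.mpr (Ideal.subset_span ⟨(sp, i), rfl⟩)

theorem adjoin_univSol : Algebra.adjoin k (Set.range D.univSol) = ⊤ := by
  rw [show D.univSol = Ideal.Quotient.mkₐ k D.relIdeal ∘ MvPolynomial.X from rfl, Set.range_comp,
    ← AlgHom.map_adjoin, MvPolynomial.adjoin_range_X, Algebra.map_top]
  exact (AlgHom.range_eq_top _).mpr (Ideal.Quotient.mkₐ_surjective k _)

variable {D} in
theorem IsSol.mem_subalgebra {v : D.Var → B} (h : D.IsSol v) (S : Subalgebra k B)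
    (hS : ∀ x, v (.inr x) ∈ S) (x : D.Var) : v x ∈ S := by
  rcases x with ⟨p, n⟩ | x
  swap
  · exact hS x
  let v' : D.Var → S := Sum.elim (fun _ => 0) fun x => ⟨_, hS x⟩
  let m' := Matrix.mulVec (D.tSer v')⁻¹ (D.aSer v')
  have hv : ∀ x, (S.val ∘ v') (.inr x) = v (.inr x) := fun _ => rfl
  have h1 : Matrix.mulVec (D.tSer v) (fun p => coeffMapₐ S.val (m' p)) = D.aSer v := by
    funext q
    rw [← D.tSer_congr hv, ← D.aSer_congr hv, ← coeffMapₐ_aSer, ← coeffMapₐ_tSer]
    change Matrix.mulVec ((D.tSer v').map (coeffMapₐ S.val).toRingHom)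
      ((coeffMapₐ S.val).toRingHom ∘ m') q = _
    rw [← RingHom.map_mulVec, Matrix.mulVec_mulVec, Matrix.mul_nonsing_inv _ (D.isUnit_det_tSer v'),
      Matrix.one_mulVec]
    rfl
  have h2 : (fun p => coeffMapₐ S.val (m' p)) = D.mser v :=
    Matrix.mulVec_injective_of_isUnit ((Matrix.isUnit_iff_isUnit_det (D.tSer v)).mpr (D.isUnit_det_tSer v))
      (h1.trans h.tSer_mulVec.symm)
  have h3 : v (.inl (p, n)) = (D.mser v p).coeff (1 - (D.genus : ℤ) + n) := by
    rw [mser_coeff, if_neg (by omega), if_pos (by omega)]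
    congr 3
    omega
  rw [h3, ← congrFun h2 p, coeffMapₐ_coeff]
  exact SetLike.coe_mem _

theorem fg_of_isSol {v : D.Var → B} (h : D.IsSol v) (hv : Algebra.adjoin k (Set.range v) = ⊤) :
    Algebra.FiniteType k B := by
  let S : Subalgebra k B := Algebra.adjoin k (Set.range fun x => v (.inr x))
  have e : S = ⊤ := by
    rw [eq_top_iff, ← hv]
    exact Algebra.adjoin_le (Set.range_subset_iff.mpr
      (h.mem_subalgebra S fun x => Algebra.subset_adjoin ⟨x, rfl⟩))
  exact ⟨by rw [← e]; exact Subalgebra.fg_def.mpr ⟨_, Set.finite_range _, rfl⟩⟩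

instance finiteType_chartRing : Algebra.FiniteType k D.chartRing :=
  D.fg_of_isSol D.isSol_univSol D.adjoin_univSol

theorem coeffMapₐ_mem_modSpan (φ : B →ₐ[k] B') {v : D.Var → B} {x : LaurentSeries B}
    (hx : x ∈ D.modSpan v) : coeffMapₐ φ x ∈ D.modSpan (φ ∘ v) := by
  induction hx using Submodule.span_induction with
  | mem z hz =>
    obtain ⟨q, rfl⟩ := hz
    rw [coeffMapₐ_bFam]
    exact Submodule.subset_span ⟨q, rfl⟩
  | zero => rw [map_zero]; exact zero_mem _
  | add y z _ _ hy hz => rw [map_add]; exact add_mem hy hz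
  | smul c y _ hy => rw [coeffMapₐ_smul_series]; exact Submodule.smul_mem _ _ hy

theorem mapSub_regMod (φ : B →ₐ[k] B') {v : D.Var → B} (h : D.IsSol v) :
    D.mapSub φ (D.regMod h) = D.regMod (h.map φ) := by
  refine le_antisymm (Submodule.span_le.mpr ?_) fun x hx => ?_
  · rintro _ ⟨x, hx, rfl⟩
    exact D.coeffMapₐ_mem_modSpan φ hx
  · have : D.modSpan (φ ∘ v) ≤ (D.mapSub φ (D.regMod h)).restrictScalars B' := by
      refine Submodule.span_le.mpr ?_
      rintro _ ⟨q, rfl⟩
      exact Submodule.subset_span ⟨D.bFam v q, Submodule.subset_span ⟨q, rfl⟩, D.coeffMapₐ_bFam φ v q⟩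
    exact this hx

variable {D}

theorem toBase_eq_modSpan {W : D.Lat B} {v : D.Var → B} {h : D.IsSol v}
    (e : (W : Submodule (D.reg B) (LaurentSeries B)) = D.regMod h) : W.toBase = D.modSpan v := by
  ext x
  change x ∈ (W : Submodule (D.reg B) (LaurentSeries B)) ↔ _
  rw [e, mem_regMod]

theorem isNormalised_of_toBase_eq {W : D.Lat B} {v : D.Var → B} (e : W.toBase = D.modSpan v) :
    W.IsNormalised := by
  refine ⟨?_, by rw [e]; exact D.single_mem_modSpan v⟩
  unfold Lat.InChart
  rw [e]
  exact (D.isTri_bFam v).bijective_polar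

theorem eq_of_polar_eq {W : D.Lat B} (hW : W.InChart) {x y : LaurentSeries B}
    (hx : x ∈ W.toBase) (hy : y ∈ W.toBase) (h : polar B D.genus x = polar B D.genus y) : x = y :=
  congrArg Subtype.val (hW.injective (a₁ := ⟨x, hx⟩) (a₂ := ⟨y, hy⟩) h)

theorem coeff_mul_eq_zero {x y : LaurentSeries B} {a b : ℤ} (hx : ∀ i < a, x.coeff i = 0)
    (hy : ∀ i < b, y.coeff i = 0) {n : ℤ} (hn : n < a + b) : (x * y).coeff n = 0 := by
  rw [HahnSeries.coeff_mul]
  refine Finset.sum_eq_zero fun ij hij => ?_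
  obtain ⟨-, -, e⟩ := Finset.mem_antidiagonal.mp hij
  rcases lt_or_ge ij.1 a with h | h
  · rw [hx _ h, zero_mul]
  · rw [hy _ (by omega), mul_zero]

/-- Every normalised submodule comes from parameters. -/
theorem exists_sol {W : D.Lat B} (hW : W.IsNormalised) :
    ∃ v : D.Var → B, D.IsSol v ∧ W.toBase = D.modSpan v := by
  have hx : ∀ p : D.gaps, ∃ x ∈ W.toBase,
      polar B D.genus x = Finsupp.single ⟨D.genus + p.1, Nat.le_add_right _ _⟩ 1 := fun p => by
    obtain ⟨⟨x, h⟩, e⟩ := hW.1.surjective (Finsupp.single ⟨D.genus + p.1, Nat.le_add_right _ _⟩ 1)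
    exact ⟨x, h, e⟩
  choose x hxW hxp using hx
  let c : D.gaps × ℕ → B := fun pn => (x pn.1).coeff (1 - (D.genus : ℤ) + pn.2)
  let v₀ : D.Var → B := Sum.elim c fun _ => 0
  have hms : ∀ p, D.mser v₀ p = x p := fun p => by
    ext i
    rw [mser_coeff]
    by_cases h : 1 - (D.genus : ℤ) ≤ i
    · rw [if_neg (by omega), if_pos h]
      simp only [v₀, c, Sum.elim_inl]
      congr 1
      omega
    · have h2 := congrArg (fun z : {j : ℕ // D.genus ≤ j} →₀ B => z ⟨(-i).toNat, by omega⟩) (hxp p)
      simp only [polar_apply, Finsupp.single_apply, Subtype.mk.injEq] at h2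
      rw [show -(((-i).toNat : ℕ) : ℤ) = i by omega] at h2
      rw [h2, if_neg h]
      split_ifs <;> first | rfl | omega
  have hle : D.modSpan v₀ ≤ W.toBase := by
    refine Submodule.span_le.mpr ?_
    rintro _ ⟨q, rfl⟩
    by_cases hq : q ∈ D.gaps
    · rw [bFam, dif_pos hq, hms]
      exact hxW _
    · rw [bFam, dif_neg hq]
      exact Submodule.smul_mem (W : Submodule (D.reg B) (LaurentSeries B))
        (⟨_, D.embC_mem_reg B (D.aFun q)⟩ : D.reg B) hW.2
  have heq : W.toBase = D.modSpan v₀ := le_antisymm (fun y hy => by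
    obtain ⟨⟨z, hz⟩, e⟩ := (D.isTri_bFam v₀).bijective_polar.surjective (polar B D.genus y)
    rwa [eq_of_polar_eq hW.1 hy (hle hz) e.symm]) hle
  have hcomb : ∀ sp : D.gens × D.gaps, ∃ a : ℕ →₀ B,
      a.support ⊆ Finset.range (D.poleBound sp.1.1 + sp.2.1 + 1) ∧
      Finsupp.linearCombination B (D.bFam v₀) a = D.embC B sp.1.1 * D.mser v₀ sp.2 := fun sp => by
    have hmem : D.embC B sp.1.1 * D.mser v₀ sp.2 ∈ D.modSpan v₀ := by
      rw [← heq, hms]
      exact Submodule.smul_mem (W : Submodule (D.reg B) (LaurentSeries B))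
        (⟨_, D.embC_mem_reg B sp.1.1⟩ : D.reg B) (hxW _)
    obtain ⟨a, ha⟩ := Finsupp.mem_span_range_iff_exists_finsupp.mp hmem
    refine ⟨a, fun n hn => Finset.mem_range.mpr ?_, ha⟩
    by_contra hlt
    refine Finsupp.mem_support_iff.mp hn ((Submodule.mem_bot B).mp
      ((D.isTri_bFam v₀).mem_of_coeff_mem ⊥ (Set.subset_univ _)
        (D.poleBound sp.1.1 + sp.2.1 + 1) (fun m hm => ?_) n (by omega)))
    rw [Submodule.mem_bot, Finsupp.linearCombination_apply, ha]
    refine coeff_mul_eq_zero (a := -(D.poleBound sp.1.1 : ℤ)) (b := -((D.genus + sp.2.1 : ℕ) : ℤ))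
      (fun i hi => by rw [embC_coeff, D.poleBound_spec _ hi, map_zero])
      (fun i hi => by rw [mser_coeff, if_neg (by omega), if_neg (by omega)]) (by omega)
  choose a ha hae using hcomb
  let v : D.Var → B := Sum.elim c fun x => a x.1 x.2
  have hvl : ∀ x, v (.inl x) = v₀ (.inl x) := fun _ => rfl
  refine ⟨v, fun sp => ?_, by rw [heq, modSpan, modSpan, D.bFam_congr hvl]⟩
  rw [diff, D.mser_congr hvl, D.bFam_congr hvl, ← hae sp, Finsupp.linearCombination_apply,
    Finsupp.sum_of_support_subset _ (ha sp) (fun i (r : B) => r • D.bFam v₀ i) (fun i _ => zero_smul B (D.bFam v₀ i)), ← Fin.sum_univ_eq_sum_range]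
  exact sub_self _

theorem sol_eq_of_modSpan_eq {v w : D.Var → B} (hv : D.IsSol v) (hw : D.IsSol w)
    (h : D.modSpan v = D.modSpan w) : v = w := by
  have hm : ∀ p, D.mser v p = D.mser w p := fun p => by
    have hmem : ∀ u : D.Var → B, D.mser u p ∈ D.modSpan u := fun u =>
      Submodule.subset_span ⟨p.1, by rw [bFam, dif_pos p.2]⟩
    have hp : polar B D.genus (D.mser v p) = polar B D.genus (D.mser w p) := by
      refine Finsupp.ext fun j => ?_
      rw [polar_apply, polar_apply, mser_coeff, mser_coeff]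
      have := j.2
      split_ifs <;> first | rfl | omega
    exact congrArg Subtype.val ((D.isTri_bFam v).bijective_polar.injective
      (a₁ := ⟨_, hmem v⟩) (a₂ := ⟨D.mser w p, by change D.mser w p ∈ D.modSpan v; rw [h]; exact hmem w⟩) hp)
  have hl : ∀ x, v (.inl x) = w (.inl x) := fun ⟨p, n⟩ => by
    have h2 := congrArg (fun z : LaurentSeries B => z.coeff (1 - (D.genus : ℤ) + n)) (hm p)
    simp only [mser_coeff] at h2
    rw [if_neg (by omega), if_pos (by omega), if_neg (by omega), if_pos (by omega),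
      show (1 - (D.genus : ℤ) + n - (1 - (D.genus : ℤ))).toNat = n by omega] at h2
    exact h2
  funext x
  rcases x with x | ⟨sp, q⟩
  · exact hl x
  have h1 := (hv sp).trans (hw sp).symm
  rw [diff, diff, hm, D.bFam_congr hl, sub_right_inj, ← sub_eq_zero, ← Finset.sum_sub_distrib] at h1
  simp only [← sub_smul] at h1
  let f : Fin (D.poleBound sp.1.1 + sp.2.1 + 1) →₀ B :=
    Finsupp.equivFunOnFinite.symm fun q => v (.inr ⟨sp, q⟩) - w (.inr ⟨sp, q⟩)
  have h2 : Finsupp.linearCombination B (D.bFam w) (f.mapDomain Fin.val) = 0 := by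
    rw [Finsupp.linearCombination_mapDomain, Finsupp.linearCombination_apply,
      Finsupp.sum_fintype f (fun i (r : B) => r • (D.bFam w ∘ Fin.val) i) (fun i => zero_smul B _)]
    exact h1
  have h3 := (D.isTri_bFam w).eq_zero (Set.subset_univ _) fun n => by rw [h2]; rfl
  have h4 : f = 0 := Finsupp.mapDomain_injective Fin.val_injective (by rw [h3, Finsupp.mapDomain_zero])
  exact sub_eq_zero.mp (DFunLike.congr_fun h4 q)

variable (D) [IsAlgClosed k]

/-- The universal line bundle. -/
def univLat : D.Lat D.chartRing := D.isSol_univSol.isUnit_regMod.unit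

theorem toBase_latMap_univLat (φ : D.chartRing →ₐ[k] B) :
    (D.latMap φ D.univLat).toBase = D.modSpan (φ ∘ D.univSol) :=
  toBase_eq_modSpan (h := D.isSol_univSol.map φ) (by
    change D.mapSub φ _ = _
    rw [univLat, IsUnit.unit_spec, mapSub_regMod])

theorem isNormalised_univLat : D.univLat.IsNormalised :=
  isNormalised_of_toBase_eq (toBase_eq_modSpan (h := D.isSol_univSol) (by rw [univLat, IsUnit.unit_spec]))

theorem existsUnique_latMap_univLat {W : D.Lat B} (hW : W.IsNormalised) :
    ∃! φ : D.chartRing →ₐ[k] B, D.latMap φ D.univLat = W := by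
  obtain ⟨v, hv, hWv⟩ := exists_sol hW
  have hker : ∀ f ∈ D.relIdeal, MvPolynomial.aeval (R := k) v f = 0 := fun f hf => by
    refine (Ideal.span_le (I := RingHom.ker (MvPolynomial.aeval (R := k) v))).mpr ?_ hf
    rintro _ ⟨⟨sp, i⟩, rfl⟩
    have he : (MvPolynomial.aeval (R := k) v) ∘ MvPolynomial.X = v := funext fun x => MvPolynomial.aeval_X v x
    change MvPolynomial.aeval (R := k) v ((D.diff MvPolynomial.X sp).coeff i) = 0
    rw [← coeffMapₐ_coeff, coeffMapₐ_diff, he, hv sp]
    rfl
  let φ : D.chartRing →ₐ[k] B := Ideal.Quotient.liftₐ D.relIdeal (MvPolynomial.aeval v) hker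
  have hφ : φ ∘ D.univSol = v := funext fun x => MvPolynomial.aeval_X v x
  have hinj : Function.Injective fun V : D.Lat B => V.toBase := fun V V' e =>
    Units.ext (Submodule.restrictScalars_injective B _ _ e)
  refine ⟨φ, hinj (by simp only [D.toBase_latMap_univLat, hφ, hWv]), fun ψ hψ => ?_⟩
  have h1 : ψ ∘ D.univSol = v := sol_eq_of_modSpan_eq (D.isSol_univSol.map ψ) hv (by
    rw [← D.toBase_latMap_univLat, hψ, hWv])
  refine Ideal.Quotient.algHom_ext k (MvPolynomial.algHom_ext fun x => ?_)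
  exact (congrFun h1 x).trans (congrFun hφ x).symm

end Fermat.Agent.Jac.CurveData
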