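/-
S25, unit U3: lifting normalised submodules along square zero extensions, formal smoothness of the chart.
-/
import Fermat.Agent.Jac.Chart.Universal
import Mathlib.RingTheory.Idempotents
import Mathlib.RingTheory.Smooth.Basic

set_option autoImplicit false
set_option linter.unusedSectionVars false

noncomputable section

universe u

open scoped TensorProduct Matrix
open scoped Classical

namespace Fermat.Agent.Jac

theorem exists_sum_mul_eq_of_mem_mul {R A : Type*} [CommSemiring R] [CommSemiring A] [Algebra R A]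
    {V W : Submodule R A} {x : A} (hx : x ∈ V * W) :
    ∃ (n : ℕ) (v w : Fin n → A), (∀ i, v i ∈ V) ∧ (∀ i, w i ∈ W) ∧ ∑ i, v i * w i = x := by
  refine Submodule.mul_induction_on hx (fun a ha b hb => ⟨1, fun _ => a, fun _ => b, fun _ => ha,
    fun _ => hb, by simp⟩) ?_
  rintro _ _ ⟨n, v, w, hv, hw, rfl⟩ ⟨m, v', w', hv', hw', rfl⟩
  refine ⟨n + m, Fin.append v v', Fin.append w w', ?_, ?_, by rw [Fin.sum_univ_add]; simp⟩
  · refine fun i => Fin.addCases (fun i => ?_) (fun i => ?_) i
    · rw [Fin.append_left]; exact hv i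
    · rw [Fin.append_right]; exact hv' i
  · refine fun i => Fin.addCases (fun i => ?_) (fun i => ?_) i
    · rw [Fin.append_left]; exact hw i
    · rw [Fin.append_right]; exact hw' i

theorem mul_two_sub {S S₀ : Type*} [CommRing S] [CommRing S₀] (f : S →+* S₀)
    (hK : ∀ x y, f x = 0 → f y = 0 → x * y = 0) {s : S} (hs : f s = 1) : s * (2 - s) = 1 := by
  have h := hK (1 - s) (1 - s) (by rw [map_sub, map_one, hs, sub_self]) (by rw [map_sub, map_one, hs, sub_self])
  linear_combination -h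

/-- An idempotent matrix congruent to a matrix of rank one has rank one. -/
theorem exists_rank_one {S S₀ : Type*} [CommRing S] [CommRing S₀] {ι : Type*} [Fintype ι]
    (f : S →+* S₀) (hsurj : Function.Surjective f) (hK : ∀ x y, f x = 0 → f y = 0 → x * y = 0)
    (v₀ w₀ : ι → S₀) (h₀ : ∑ i, v₀ i * w₀ i = 1) (E : Matrix ι ι S) (hE : E * E = E)
    (hfE : ∀ i j, f (E i j) = v₀ i * w₀ j) :
    ∃ v w : ι → S, (∀ i, f (v i) = v₀ i) ∧ (∀ j, f (w j) = w₀ j) ∧ ∑ i, v i * w i = 1 ∧
      ∀ i j, v i * w j = E i j := by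
  choose v' hv' using fun i => hsurj (v₀ i)
  choose w' hw' using fun i => hsurj (w₀ i)
  set v := E *ᵥ v' with hvdef
  set w := w' ᵥ* E with hwdef
  have hv : ∀ i, f (v i) = v₀ i := fun i => by
    simp only [hvdef, Matrix.mulVec, dotProduct, map_sum, map_mul, hfE, hv', mul_assoc,
      ← Finset.mul_sum]
    rw [Finset.sum_congr rfl fun j _ => mul_comm (w₀ j) (v₀ j), h₀, mul_one]
  have hw : ∀ j, f (w j) = w₀ j := fun j => by
    simp only [hwdef, Matrix.vecMul, dotProduct, map_sum, map_mul, hfE, hw', ← mul_assoc,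
      ← Finset.sum_mul]
    rw [Finset.sum_congr rfl fun j _ => mul_comm (w₀ j) (v₀ j), h₀, one_mul]
  have hEv : E *ᵥ v = v := by rw [hvdef, Matrix.mulVec_mulVec, hE]
  have hwE : w ᵥ* E = w := by rw [hwdef, Matrix.vecMul_vecMul, hE]
  set s := w ⬝ᵥ v with hsdef
  have hs : f s = 1 := by
    simp only [hsdef, dotProduct, map_sum, map_mul, hv, hw]
    rw [← h₀]
    exact Finset.sum_congr rfl fun i _ => mul_comm _ _
  have hst := mul_two_sub f hK hs
  set t := 2 - s with ht
  have hft : f t = 1 := by rw [ht, map_sub, hs, map_ofNat]; norm_num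
  set P : Matrix ι ι S := t • Matrix.vecMulVec v w
  have hEP : E * P = P := by rw [Matrix.mul_smul, Matrix.mul_vecMulVec, hEv]
  have hPE : P * E = P := by rw [Matrix.smul_mul, Matrix.vecMulVec_mul, hwE]
  have hPP : P * P = P := by
    rw [Matrix.smul_mul, Matrix.mul_smul, Matrix.vecMulVec_mul_vecMulVec, Matrix.vecMulVec_smul,
      ← hsdef, smul_smul, smul_smul, mul_assoc, mul_comm t s, hst, mul_one]
  have hd : (E - P) * (E - P) = E - P := by rw [sub_mul, mul_sub, mul_sub, hE, hEP, hPE, hPP]; abel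
  have h0 : ∀ i j, f ((E - P) i j) = 0 := fun i j => by
    simp only [P, Matrix.sub_apply, Matrix.smul_apply, Matrix.vecMulVec_apply, smul_eq_mul, map_sub,
      map_mul, hfE, hft, hv, hw, one_mul, sub_self]
  have hEP' : E = P := by
    rw [← sub_eq_zero, ← hd]
    refine Matrix.ext fun i j => ?_
    rw [Matrix.mul_apply, Matrix.zero_apply]
    exact Finset.sum_eq_zero fun l _ => hK _ _ (h0 i l) (h0 l j)
  refine ⟨fun i => v i * t, w, fun i => by rw [map_mul, hft, mul_one, hv], hw, ?_, fun i j => ?_⟩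
  · rw [← hst, hsdef, dotProduct, Finset.sum_mul]
    exact Finset.sum_congr rfl fun i _ => by ring
  · rw [hEP']
    simp only [P, Matrix.smul_apply, Matrix.vecMulVec_apply, smul_eq_mul]
    ring

namespace CurveData

variable {k : Type u} [Field k] {D : CurveData k}
variable {B B₀ : Type u} [CommRing B] [Algebra k B] [CommRing B₀] [Algebra k B₀] {π : B →ₐ[k] B₀}

theorem coeffMapₐ_surjective (hπ : Function.Surjective π) :
    Function.Surjective (coeffMapₐ π) := fun x => by
  let σ : ZeroHom B₀ B := ⟨fun b => if b = 0 then 0 else Function.surjInv hπ b, if_pos rfl⟩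
  refine ⟨x.map σ, ?_⟩
  ext i
  rw [coeffMapₐ_coeff, HahnSeries.map_coeff]
  change π (if _ = 0 then 0 else _) = _
  split_ifs with h
  · rw [map_zero, h]
  · exact Function.surjInv_eq hπ _

theorem mul_eq_zero_of_coeffMapₐ (hI : ∀ a b, π a = 0 → π b = 0 → a * b = 0) (x y : LaurentSeries B)
    (hx : coeffMapₐ π x = 0) (hy : coeffMapₐ π y = 0) : x * y = 0 := by
  ext n
  rw [HahnSeries.coeff_mul]
  exact Finset.sum_eq_zero fun ij _ => hI _ _
    (by rw [← coeffMapₐ_coeff, hx]; rfl) (by rw [← coeffMapₐ_coeff, hy]; rfl)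

theorem exists_mem_reg_lift (hπ : Function.Surjective π) {x : LaurentSeries B₀} (hx : x ∈ D.reg B₀) :
    ∃ y ∈ D.reg B, coeffMapₐ π y = x := by
  obtain ⟨a, -, rfl⟩ := D.exists_of_mem_reg hx
  choose b hb using fun n => hπ (a n)
  refine ⟨∑ n ∈ a.support, b n • D.eFun B n, sum_mem fun n _ =>
    (D.reg B).smul_mem (D.embC_mem_reg B _) _, ?_⟩
  rw [map_sum, Finsupp.linearCombination_apply, Finsupp.sum]
  exact Finset.sum_congr rfl fun n _ => by rw [coeffMapₐ_smul_series, hb, eFun, coeffMapₐ_embC]; rfl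

/-- The change of coefficients between the rings of functions. -/
def regMap (π : B →ₐ[k] B₀) : D.reg B →+* D.reg B₀ :=
  ((coeffMapₐ π).toRingHom.comp (D.reg B).val.toRingHom).codRestrict (D.reg B₀)
    fun r => D.coeffMapₐ_mem_reg π r.2

theorem regMap_coe (r : D.reg B) : (regMap π r : LaurentSeries B₀) = coeffMapₐ π r := rfl

/-- Lifting a normalised submodule, first part: a lift with the distinguished section. -/
theorem exists_lat_lift (hπ : Function.Surjective π) (hI : ∀ a b, π a = 0 → π b = 0 → a * b = 0)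
    (W₀ : D.Lat B₀) (hW₀ : HahnSeries.single (-(D.genus : ℤ)) (1 : B₀) ∈ W₀.toBase) :
    ∃ (n : ℕ) (v w : Fin n → LaurentSeries B) (W : D.Lat B),
      (∀ i, ∀ x ∈ W.toBase, x * v i ∈ D.reg B) ∧ (∀ i, w i ∈ W.toBase) ∧ ∑ i, v i * w i = 1 ∧
      HahnSeries.single (-(D.genus : ℤ)) (1 : B) ∈ W.toBase ∧
      (∀ x ∈ W.toBase, coeffMapₐ π x ∈ W₀.toBase) ∧
      ∀ x ∈ W₀.toBase, ∃ y ∈ W.toBase, coeffMapₐ π y = x := by
  set f : LaurentSeries B →+* LaurentSeries B₀ := (coeffMapₐ π).toRingHom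
  have hK : ∀ x y, f x = 0 → f y = 0 → x * y = 0 := mul_eq_zero_of_coeffMapₐ hI
  have h1 : (1 : LaurentSeries B₀) ∈
      ((W₀⁻¹ : D.Lat B₀) : Submodule (D.reg B₀) (LaurentSeries B₀)) * W₀ := by
    rw [← Units.val_mul, inv_mul_cancel, Units.val_one]
    exact Submodule.one_le.mp le_rfl
  obtain ⟨n, v₀, w₀, hv₀, hw₀, h₀⟩ := exists_sum_mul_eq_of_mem_mul h1
  have hmem : ∀ {x y : LaurentSeries B₀},
      x ∈ ((W₀⁻¹ : D.Lat B₀) : Submodule (D.reg B₀) (LaurentSeries B₀)) → y ∈ W₀.toBase →
      x * y ∈ D.reg B₀ := fun {x y} hx hy => by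
    have h2 := Submodule.mul_mem_mul hx (show y ∈ (W₀ : Submodule (D.reg B₀) (LaurentSeries B₀)) from hy)
    rw [← Units.val_mul, inv_mul_cancel, Units.val_one] at h2
    obtain ⟨r, hr⟩ := Submodule.mem_one.mp h2
    rw [← hr]
    exact r.2
  let E₀ : Matrix (Fin n) (Fin n) (D.reg B₀) := Matrix.of fun i j => ⟨v₀ i * w₀ j, hmem (hv₀ i) (hw₀ j)⟩
  have hE₀ : IsIdempotentElem E₀ := Matrix.ext fun i j => Subtype.ext (by
    simp only [Matrix.mul_apply, AddSubmonoidClass.coe_finsetSum, MulMemClass.coe_mul, E₀,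
      Matrix.of_apply]
    calc ∑ l, v₀ i * w₀ l * (v₀ l * w₀ j) = v₀ i * w₀ j * ∑ l, v₀ l * w₀ l := by
          rw [Finset.mul_sum]; exact Finset.sum_congr rfl fun l _ => by ring
      _ = v₀ i * w₀ j := by rw [h₀, mul_one])
  obtain ⟨E, hE, hfE⟩ := exists_isIdempotentElem_eq_of_ker_isNilpotent ((regMap (D := D) π).mapMatrix)
    (fun X hX => ⟨2, by
      rw [pow_two]
      refine Matrix.ext fun i j => Subtype.ext ?_
      rw [Matrix.mul_apply, AddSubmonoidClass.coe_finsetSum]
      have hX' : ∀ a b, coeffMapₐ π (X a b : LaurentSeries B) = 0 := fun a b =>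
        congrArg Subtype.val (Matrix.ext_iff.mpr (show X.map (regMap (D := D) π) = 0 from hX) a b)
      exact Finset.sum_eq_zero fun l _ => by
        rw [MulMemClass.coe_mul]; exact hK _ _ (hX' i l) (hX' l j)⟩)
    E₀ (by
      choose e he hfe using fun i j => exists_mem_reg_lift hπ (E₀ i j).2
      exact ⟨Matrix.of fun i j => ⟨e i j, he i j⟩, Matrix.ext fun i j => Subtype.ext (hfe i j)⟩) hE₀
  obtain ⟨v, w, hv, hw, hvw, hE'⟩ := exists_rank_one f (coeffMapₐ_surjective hπ) hK v₀ w₀ h₀
    ((D.reg B).val.toRingHom.mapMatrix E) (by rw [← map_mul, hE.eq]) fun i j =>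
      congrArg Subtype.val (Matrix.ext_iff.mpr hfE i j)
  have hvwR : ∀ i j, v i * w j ∈ D.reg B := fun i j => by rw [hE']; exact (E i j).2
  -- preimages in the span of `w`
  have hexp : ∀ x ∈ W₀.toBase, ∃ c : Fin n → D.reg B, coeffMapₐ π (∑ i, (c i : LaurentSeries B) * w i) = x := by
    intro x hx
    choose c hc hfc using fun i => exists_mem_reg_lift hπ (hmem (hv₀ i) hx)
    refine ⟨fun i => ⟨c i, hc i⟩, ?_⟩
    rw [map_sum]
    calc ∑ i, coeffMapₐ π (c i * w i) = ∑ i, x * (v₀ i * w₀ i) :=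
          Finset.sum_congr rfl fun i _ => by rw [map_mul, hfc, show coeffMapₐ π (w i) = w₀ i from hw i]; ring
      _ = x := by rw [← Finset.mul_sum, h₀, mul_one]
  obtain ⟨c, hc⟩ := hexp _ hW₀
  set m := ∑ i, (c i : LaurentSeries B) * w i with hm
  set a := m * HahnSeries.single (D.genus : ℤ) (1 : B) with ha
  have hfa : f a = 1 := by
    change coeffMapₐ π (m * HahnSeries.single (D.genus : ℤ) 1) = 1
    rw [map_mul, hc, coeffMapₐ_single, map_one π]
    exact (xPow B₀ D.genus).inv_val
  have hab := mul_two_sub f hK hfa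
  set b := 2 - a with hb
  have hfb : coeffMapₐ π b = 1 := by
    change f b = 1
    rw [hb, map_sub, hfa, map_ofNat]; norm_num
  let v' : Fin n → LaurentSeries B := fun i => a * v i
  let w' : Fin n → LaurentSeries B := fun i => b * w i
  have hvw' : ∀ i j, v' i * w' j ∈ D.reg B := fun i j => by
    rw [show v' i * w' j = (a * b) * (v i * w j) by simp only [v', w']; ring, hab, one_mul]
    exact hvwR i j
  have hsum : ∑ i, v' i * w' i = 1 := by
    rw [← hvw, ← one_mul (∑ i, v i * w i), ← hab, Finset.mul_sum]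
    exact Finset.sum_congr rfl fun i _ => by simp only [v', w']; ring
  let Wm : Submodule (D.reg B) (LaurentSeries B) := Submodule.span (D.reg B) (Set.range w')
  let Vm : Submodule (D.reg B) (LaurentSeries B) := Submodule.span (D.reg B) (Set.range v')
  have hWV : Wm * Vm = 1 := by
    refine le_antisymm ?_ (Submodule.one_le.mpr ?_)
    · rw [Submodule.span_mul_span, Submodule.span_le]
      rintro _ ⟨_, ⟨j, rfl⟩, _, ⟨i, rfl⟩, rfl⟩
      exact Submodule.mem_one.mpr ⟨⟨_, hvw' i j⟩, mul_comm _ _⟩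
    · rw [← hsum]
      exact sum_mem fun i _ => by
        rw [mul_comm]
        exact Submodule.mul_mem_mul (Submodule.subset_span ⟨i, rfl⟩) (Submodule.subset_span ⟨i, rfl⟩)
  let W : D.Lat B := ⟨Wm, Vm, hWV, by rw [mul_comm]; exact hWV⟩
  have hfw : ∀ i, coeffMapₐ π (w' i) = w₀ i := fun i => by
    rw [map_mul, hfb, one_mul]; exact hw i
  refine ⟨n, v', w', W, fun i x hx => ?_, fun i => Submodule.subset_span ⟨i, rfl⟩, hsum, ?_, ?_, ?_⟩
  · have h2 : x * v' i ∈ Wm * Vm := Submodule.mul_mem_mul hx (Submodule.subset_span ⟨i, rfl⟩)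
    rw [hWV] at h2
    obtain ⟨r, hr⟩ := Submodule.mem_one.mp h2
    rw [← hr]
    exact r.2
  · have h2 : b * m ∈ W.toBase := by
      rw [hm, Finset.mul_sum]
      exact sum_mem fun i _ => by
        rw [mul_left_comm]; exact Submodule.smul_mem Wm (c i) (Submodule.subset_span ⟨i, rfl⟩)
    rwa [show b * m = HahnSeries.single (-(D.genus : ℤ)) 1 from calc
      b * m = b * m * (HahnSeries.single (D.genus : ℤ) 1 * HahnSeries.single (-(D.genus : ℤ)) 1) := by
        rw [HahnSeries.single_mul_single, add_neg_cancel, one_mul]; exact (mul_one _).symm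
      _ = a * b * HahnSeries.single (-(D.genus : ℤ)) 1 := by rw [ha]; ring
      _ = _ := by rw [hab, one_mul]] at h2
  · intro x hx
    refine Submodule.span_induction (p := fun x _ => coeffMapₐ π x ∈ W₀.toBase) ?_ ?_ ?_ ?_ hx
    · rintro _ ⟨i, rfl⟩
      rw [hfw]; exact hw₀ i
    · rw [map_zero]; exact zero_mem _
    · intro y z _ _ hy hz; rw [map_add]; exact add_mem hy hz
    · intro r y _ hy
      rw [Subalgebra.smul_def, smul_eq_mul, map_mul, ← regMap_coe]
      exact Submodule.smul_mem (W₀ : Submodule (D.reg B₀) (LaurentSeries B₀)) (regMap π r) hy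
  · intro x hx
    obtain ⟨c', hc'⟩ := hexp x hx
    refine ⟨∑ i, (c' i : LaurentSeries B) * w' i,
      sum_mem fun i _ => Submodule.smul_mem Wm (c' i) (Submodule.subset_span ⟨i, rfl⟩), ?_⟩
    rw [← hc', map_sum, map_sum]
    exact Finset.sum_congr rfl fun i _ => by
      rw [map_mul (coeffMapₐ π) (c' i : LaurentSeries B) (w' i), map_mul (coeffMapₐ π) (c' i : LaurentSeries B) (w i),
        hfw, show coeffMapₐ π (w i) = w₀ i from hw i]

/-- Normalised submodules lift along square zero extensions. -/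
theorem exists_normalised_lift (hπ : Function.Surjective π)
    (hI : ∀ a b, π a = 0 → π b = 0 → a * b = 0) (W₀ : D.Lat B₀) (hW₀ : W₀.IsNormalised) :
    ∃ W : D.Lat B, W.IsNormalised ∧ D.latMap π W = W₀ := by
  obtain ⟨n, v, w, W, hxv, hw, hvw, hone, hto, hlift⟩ := exists_lat_lift hπ hI W₀ hW₀.2
  refine ⟨W, ⟨?_, hone⟩, Units.ext (le_antisymm (Submodule.span_le.mpr ?_) fun x hx => ?_)⟩
  swap
  · rintro _ ⟨x, hx, rfl⟩
    exact hto x hx
  swap
  · obtain ⟨y, hy, rfl⟩ := hlift x hx
    exact Submodule.subset_span ⟨y, hy, rfl⟩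
  set J := {j : ℕ // D.genus ≤ j}
  have hX : ∀ j : J, ∃ X ∈ W.toBase, polar B₀ D.genus (coeffMapₐ π X) = Finsupp.single j 1 := fun j => by
    obtain ⟨⟨x, hx⟩, e⟩ := hW₀.1.surjective (Finsupp.single j 1)
    obtain ⟨y, hy, rfl⟩ := hlift x hx
    exact ⟨y, hy, e⟩
  choose X hXW hXp using hX
  have hp : ∀ (x : LaurentSeries B) (j : J),
      π (polar B D.genus x j) = polar B₀ D.genus (coeffMapₐ π x) j := fun x j => rfl
  let K : Submodule B (J →₀ B) := ⨅ j, Submodule.comap (Finsupp.lapply j) (RingHom.ker π : Ideal B)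
  have hKmem : ∀ {c : J →₀ B}, c ∈ K ↔ ∀ j, π (c j) = 0 := fun {c} => by
    simp [K, Submodule.mem_iInf, RingHom.mem_ker]
  have hKp : ∀ c ∈ K, polar B D.genus (Finsupp.linearCombination B X c) = c := fun c hc => by
    refine Finsupp.ext fun j => ?_
    rw [Finsupp.linearCombination_apply, map_finsuppSum, Finsupp.sum, Finsupp.finsetSum_apply]
    simp only [map_smul, Finsupp.smul_apply, smul_eq_mul]
    have h1 : ∀ i, c i * polar B D.genus (X i) j = c i * (if i = j then 1 else 0) := fun i => by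
      rw [← sub_eq_zero, ← mul_sub]
      refine hI _ _ (hKmem.mp hc i) ?_
      rw [map_sub, hp, hXp, Finsupp.single_apply]
      split_ifs <;> simp
    simp only [h1]
    rw [Finset.sum_eq_single j (fun i _ hi => by rw [if_neg hi, mul_zero])
      (fun h => by rw [Finsupp.notMem_support_iff.mp h, zero_mul]), if_pos rfl, mul_one]
  have hdecomp : ∀ z ∈ W.toBase, ∃ c : J →₀ B,
      coeffMapₐ π (z - Finsupp.linearCombination B X c) = 0 := fun z hz => by
    let σ : B₀ → B := fun b => if b = 0 then 0 else Function.surjInv hπ b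
    have hσ : ∀ b, π (σ b) = b := fun b => by
      simp only [σ]; split_ifs with h
      · rw [map_zero, h]
      · exact Function.surjInv_eq hπ _
    refine ⟨(polar B₀ D.genus (coeffMapₐ π z)).mapRange σ (if_pos rfl), ?_⟩
    rw [map_sub, sub_eq_zero]
    refine eq_of_polar_eq hW₀.1 (hto z hz) (hto _ ?_) ?_
    · exact (Submodule.span_le.mpr (by rintro _ ⟨j, rfl⟩; exact hXW j) : Submodule.span B (Set.range X) ≤ W.toBase)
        (Finsupp.range_linearCombination (R := B) (v := X) ▸ ⟨_, rfl⟩)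
    · rw [Finsupp.linearCombination_apply, map_finsuppSum, map_finsuppSum,
        Finsupp.sum_mapRange_index (fun j => by rw [zero_smul, map_zero, map_zero])]
      simp only [coeffMapₐ_smul_series, map_smul, hσ, hXp, Finsupp.smul_single, smul_eq_mul, mul_one,
        Finsupp.sum_single]
  refine ⟨(injective_iff_map_eq_zero _).mpr fun ⟨x, hx⟩ hx0 => Subtype.ext ?_, fun y => ?_⟩
  · -- coefficients in the kernel
    change polar B D.genus x = 0 at hx0
    have hfx : coeffMapₐ π x = 0 := by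
      refine eq_of_polar_eq hW₀.1 (hto x hx) (zero_mem _) (Finsupp.ext fun j => ?_)
      rw [← hp, hx0, map_zero]; simp
    let T : Submodule B (LaurentSeries B) := K.map (Finsupp.linearCombination B X)
    have hT : ∀ a : B, π a = 0 → ∀ z ∈ W.toBase, a • z ∈ T := fun a ha z hz => by
      obtain ⟨c, hc⟩ := hdecomp z hz
      refine ⟨a • c, hKmem.mpr fun j => by simp [ha], ?_⟩
      rw [map_smul, eq_comm, ← sub_eq_zero, ← smul_sub]
      ext i
      rw [smul_coeff]
      exact hI _ _ ha (by rw [← coeffMapₐ_coeff, hc]; rfl)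
    have hxT : x ∈ T := by
      rw [← mul_one x, ← hvw, Finset.mul_sum]
      refine sum_mem fun i _ => ?_
      rw [← mul_assoc]
      obtain ⟨a, ha, e⟩ := D.exists_of_mem_reg (hxv i x hx)
      have ha' : ∀ l, a l ∈ RingHom.ker π := fun l =>
        (D.isTri_eFun B).mem_of_coeff_mem (RingHom.ker π) ha 0 (fun m _ => by
          rw [RingHom.mem_ker, e, ← coeffMapₐ_coeff, map_mul, hfx, zero_mul]; rfl) l (Nat.zero_le l)
      rw [← e, Finsupp.linearCombination_apply, Finsupp.sum, Finset.sum_mul]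
      refine sum_mem fun l _ => ?_
      rw [smul_mul_assoc]
      exact hT _ (ha' l) _ (Submodule.smul_mem (W : Submodule (D.reg B) (LaurentSeries B))
        (⟨_, D.embC_mem_reg B (D.aFun l)⟩ : D.reg B) (hw i))
    obtain ⟨c, hc, e⟩ := hxT
    rw [← e, hKp c hc] at hx0
    change x = 0
    rw [← e, hx0, map_zero]
  · let σ : B →+* B₀ := π.toRingHom
    obtain ⟨⟨x₀, hx₀⟩, e⟩ := hW₀.1.surjective (y.mapRange π (map_zero π))
    obtain ⟨x, hx, rfl⟩ := hlift x₀ hx₀
    have hd : y - polar B D.genus x ∈ K := hKmem.mpr fun j => by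
      rw [Finsupp.sub_apply, map_sub, hp, show polar B₀ D.genus (coeffMapₐ π x) = _ from e,
        Finsupp.mapRange_apply, sub_self]
    refine ⟨⟨x + Finsupp.linearCombination B X (y - polar B D.genus x), add_mem hx ?_⟩, ?_⟩
    · rw [Finsupp.linearCombination_apply]
      exact sum_mem fun j _ => Submodule.smul_mem _ _ (hXW j)
    · change polar B D.genus (x + Finsupp.linearCombination B X (y - polar B D.genus x)) = y
      rw [map_add, hKp _ hd, add_sub_cancel]

variable (D) [IsAlgClosed k]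

theorem formallySmooth_chartRing : Algebra.FormallySmooth k D.chartRing := by
  refine Algebra.FormallySmooth.of_comp_surjective fun B _ _ I hI φ₀ => ?_
  obtain ⟨W, hW, hWφ⟩ := exists_normalised_lift (π := Ideal.Quotient.mkₐ k I)
    (Ideal.Quotient.mkₐ_surjective k I)
    (fun a b ha hb => by
      rw [← Submodule.mem_bot B, ← hI, pow_two]
      exact Ideal.mul_mem_mul (Ideal.Quotient.eq_zero_iff_mem.mp ha) (Ideal.Quotient.eq_zero_iff_mem.mp hb))
    (D.latMap φ₀ D.univLat) (isNormalised_of_toBase_eq (D.toBase_latMap_univLat φ₀))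
  obtain ⟨ψ, hψ, -⟩ := D.existsUnique_latMap_univLat hW
  refine ⟨ψ, ExistsUnique.unique (D.existsUnique_latMap_univLat
    (isNormalised_of_toBase_eq (D.toBase_latMap_univLat φ₀))) ?_ rfl⟩
  rw [← latMap_latMap, hψ, hWφ]

end CurveData

end Fermat.Agent.Jac
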